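import Fermat.Agent.MordellAverage.Isogeny
import Mathlib.AlgebraicGeometry.EllipticCurve.Reduction
import Mathlib.NumberTheory.Padics.PadicIntegers

/-!
# `y² = x³ + 1` has good reduction outside `2` and `3`
-/

set_option autoImplicit false
set_option linter.style.haveILetI false

noncomputable section

open WeierstrassCurve IsDedekindDomain.HeightOneSpectrum IsDiscreteValuationRing
open FA.MordellAverage

namespace FA.BrumerSilverman

/-- An integral equation with unit discriminant has good reduction. -/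
theorem hasGoodReduction_of_isUnit {p : ℕ} [Fact p.Prime] (V : WeierstrassCurve ℤ_[p])
    (hV : IsUnit V.Δ) : HasGoodReduction ℤ_[p] (V.map (algebraMap ℤ_[p] ℚ_[p])) := by
  set M := V.map (algebraMap ℤ_[p] ℚ_[p])
  haveI hi : IsIntegral ℤ_[p] M := ⟨⟨V, rfl⟩⟩
  have hv : valuation ℚ_[p] (maximalIdeal ℤ_[p]) M.Δ = 1 := by
    rw [map_Δ]
    refine le_antisymm (valuation_le_one _ _) (not_lt.mp fun h => ?_)
    rw [valuation_lt_one_iff_mem] at h
    exact (maximalIdeal ℤ_[p]).isPrime.ne_top (Ideal.eq_top_of_isUnit_mem _ h hV)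
  refine (hasGoodReduction_iff _ _).mpr ⟨⟨⟨by simpa using hi, fun C hC _ => ?_⟩⟩, hv⟩
  haveI : IsIntegral ℤ_[p] (C • M) := hC
  haveI : IsIntegral ℤ_[p] ((1 : VariableChange ℚ_[p]) • M) := by rw [one_smul]; exact hi
  rw [← Subtype.coe_le_coe, valuation_Δ_aux_eq_of_isIntegral, valuation_Δ_aux_eq_of_isIntegral,
    one_smul, hv]
  rw [← integralModel_Δ_eq ℤ_[p] (C • M)]
  exact valuation_le_one _ _

theorem good_mord_one (p : ℕ) [hp : Fact p.Prime] (h : p ∉ ({2, 3} : Finset ℕ)) :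
    ∃ C : VariableChange ℚ_[p],
      HasGoodReduction ℤ_[p] (C • (mord (1 : ℚ)).map (algebraMap ℚ ℚ_[p])) := by
  refine ⟨1, ?_⟩
  set V : WeierstrassCurve ℤ_[p] := ⟨0, 0, 0, 0, 1⟩
  have e : (mord (1 : ℚ)).map (algebraMap ℚ ℚ_[p]) = V.map (algebraMap ℤ_[p] ℚ_[p]) := by
    ext <;> simp [V]
  rw [one_smul, e]
  refine hasGoodReduction_of_isUnit V ?_
  have hΔ : V.Δ = ((-432 : ℤ) : ℤ_[p]) := by
    simp [V, WeierstrassCurve.Δ, WeierstrassCurve.b₂, WeierstrassCurve.b₄, WeierstrassCurve.b₆,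
      WeierstrassCurve.b₈]
    norm_num
  rw [hΔ, PadicInt.isUnit_iff]
  refine le_antisymm (PadicInt.norm_le_one _) (not_lt.mp fun hlt => ?_)
  rw [PadicInt.norm_intCast_lt_one_iff, dvd_neg] at hlt
  have h' : p ∣ 2 ^ 4 * 3 ^ 3 := by exact_mod_cast (show (p : ℤ) ∣ ((432 : ℕ) : ℤ) from hlt)
  rcases hp.out.dvd_mul.mp h' with h' | h'
  · exact h (by simp [(Nat.prime_dvd_prime_iff_eq hp.out Nat.prime_two).mp
      (hp.out.dvd_of_dvd_pow h')])
  · exact h (by simp [(Nat.prime_dvd_prime_iff_eq hp.out Nat.prime_three).mp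
      (hp.out.dvd_of_dvd_pow h')])

end FA.BrumerSilverman
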