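import Fermat.Agent.BrumerSilverman.Descent
import Fermat.Agent.IntegralAverage.Quartic
import Fermat.Agent.IntegralAverage.Thue
import Fermat.Agent.IntegralUniform.Main

/-!
# The `S`-integral points of a Mordell curve against the descent classes

In one class the abscissa of an `S`-integral point is a cube root of `H³ / (729 G²)`, with `G` the
cubic form of one of them and `H` its Hessian, at a coprime pair where `G` is composed of the primes
of `S` and of `6 k`; Evertse bounds these pairs.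
-/

set_option autoImplicit false
set_option linter.style.haveILetI false

noncomputable section

open Finset FA.Thue FA.MordellAverage
open scoped Classical

namespace FA.BrumerSilverman

/-- The points of `y² = x³ + k` with `S`-integral abscissa. -/
def mordSPoints (S : Finset ℕ) (k : ℤ) : Set (ℚ × ℚ) :=
  {p | p.2 ^ 2 = p.1 ^ 3 + (k : ℚ) ∧ ∀ q : ℕ, q.Prime → q ∣ p.1.den → q ∈ S}

/-- A form and its Hessian have no common zero modulo a prime not dividing the discriminant. -/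
theorem no_common_zero {G : CubicForm} {l : ℤ} (hl : Prime l) (hd : ¬ l ∣ G.disc) {u w : ℤ}
    (hco : IsCoprime u w) (hG : l ∣ G.eval u w) (hH : l ∣ G.hess u w) : False := by
  obtain ⟨a, b, hab⟩ := hco
  set F := G.act u (-b) w a
  have hdet : u * a - -b * w = 1 := by linear_combination hab
  have hFa : l ∣ F.a := by simpa [F, CubicForm.act] using hG
  have hH' : l ∣ F.b ^ 2 - 3 * F.a * F.c := by
    have h := G.hess_act (R := ℤ) u (-b) w a 1 0
    simp only [Int.cast_id, hdet, one_pow, one_mul, mul_one, mul_zero, add_zero] at h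
    have h1 : F.hess (1 : ℤ) 0 = F.b ^ 2 - 3 * F.a * F.c := by simp [CubicForm.hess]
    rwa [← h1, h]
  have hFb : l ∣ F.b := hl.dvd_of_dvd_pow (n := 2) (by
    have := dvd_add hH' ((hFa.mul_left 3).mul_right F.c)
    simpa using this)
  refine hd ?_
  have h := G.disc_act u (-b) w a
  rw [hdet, one_pow, one_mul] at h
  rw [← h]
  show l ∣ F.disc
  obtain ⟨α, hα⟩ := hFa
  obtain ⟨β, hβ⟩ := hFb
  refine ⟨l * β ^ 2 * F.c ^ 2 - 4 * α * F.c ^ 3 - 4 * l ^ 2 * β ^ 3 * F.d -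
    27 * l * α ^ 2 * F.d ^ 2 + 18 * l * α * β * F.c * F.d, ?_⟩
  simp only [CubicForm.disc, hα, hβ]
  ring

/-- **In a class the abscissa comes from the form of one point.** -/
theorem exists_form_value {k : ℤ} {x₀ y₀ x y : ℚ} (hx₀ : x₀ ≠ 0)
    (h₀ : y₀ ^ 2 = x₀ ^ 3 + (k : ℚ)) (h : y ^ 2 = x ^ 3 + (k : ℚ)) (Φ : PointForm k x₀ y₀)
    {t : SqAlg (k : ℚ)}
    (e : ratS (k : ℚ) y + sRoot (k : ℚ) = (ratS (k : ℚ) y₀ + sRoot (k : ℚ)) * t ^ 3) :
    ∃ u w : ℤ, IsCoprime u w ∧ Φ.F.eval u w ≠ 0 ∧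
      729 * ((Φ.F.eval u w : ℤ) : ℚ) ^ 2 * x ^ 3 = ((Φ.F.hess u w : ℤ) : ℚ) ^ 3 := by
  set ι := ratS (k : ℚ)
  set s := sRoot (k : ℚ)
  have hD : (Φ.D : ℚ) ≠ 0 := Int.cast_ne_zero.mpr Φ.hD
  have hX : (Φ.X : ℚ) ≠ 0 := by rw [← Φ.hx]; exact mul_ne_zero hx₀ (pow_ne_zero 2 hD)
  set M : ℚ := (Φ.F.b : ℚ) * Φ.F.c - 9 * Φ.F.a * Φ.F.d
  set r : ℚ := t.im / 18
  set p : ℚ := (t.re - M * r) / (18 * (Φ.X : ℚ))
  have hpr : 18 * (Φ.X : ℚ) * p + M * r = t.re := by simp only [p]; field_simp; ring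
  have hr : 18 * r = t.im := by simp only [r]; ring
  have hδ : (18 * s) ^ 2 = -3 * ((Φ.F.disc : ℤ) : SqAlg (k : ℚ)) := by
    rw [Φ.hdisc]
    push_cast
    have := sRoot_sq (k : ℚ)
    rw [show ratS (k : ℚ) (k : ℚ) = ((k : ℤ) : SqAlg (k : ℚ)) by simp] at this
    linear_combination 324 * this
  have key := cube_identity Φ.F (18 * s) (ι p) (ι r) hδ
  have c0 : ((Φ.F.b : ℚ) ^ 2 - 3 * Φ.F.a * Φ.F.c) = 9 * (Φ.X : ℚ) := by exact_mod_cast Φ.hh
  have c1 : ((Φ.F.b : SqAlg (k : ℚ)) ^ 2 - 3 * Φ.F.a * Φ.F.c) = ι (9 * (Φ.X : ℚ)) := by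
    rw [← c0]; simp [ι, map_ofNat]
  have c2 : (covT Φ.F : SqAlg (k : ℚ)) + 3 * (18 * s) * Φ.F.a =
      54 * ι ((Φ.D : ℚ) ^ 3) * (ι y₀ + s) := by
    rw [Φ.ht, Φ.ha]
    have := congrArg ι Φ.hy
    simp only [ι, map_mul, map_pow, map_intCast] at this ⊢
    push_cast
    linear_combination -54 * this
  have c3 : 2 * ι (9 * (Φ.X : ℚ)) * ι p +
      ((Φ.F.b : SqAlg (k : ℚ)) * Φ.F.c - 9 * Φ.F.a * Φ.F.d + 18 * s) * ι r = t := by
    have et : t = ι t.re + ι t.im * s := by ext <;> simp [ι, s]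
    rw [et, ← hpr, ← hr]
    simp only [ι, M, map_add, map_mul, map_sub, map_intCast, map_ofNat]
    ring
  have c4 : covEval Φ.F (ι p) (ι r) = ι (covEval Φ.F p r) := by simp [covEval, ι, map_ofNat]
  have c5 : Φ.F.eval (ι p) (ι r) = ι (Φ.F.eval p r) := by simp [CubicForm.eval, ι]
  rw [c1, c2, c3, c4, c5, show 54 * ι ((Φ.D : ℚ) ^ 3) * (ι y₀ + s) * t ^ 3 =
    54 * ι ((Φ.D : ℚ) ^ 3) * (ι y + s) by rw [e, mul_assoc]] at key
  have him : 8 * (9 * (Φ.X : ℚ)) ^ 3 * (54 * Φ.F.eval p r) = 54 * (Φ.D : ℚ) ^ 3 := by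
    have key' : ι (8 * (9 * (Φ.X : ℚ)) ^ 3 * covEval Φ.F p r) +
        ι (8 * (9 * (Φ.X : ℚ)) ^ 3 * (54 * Φ.F.eval p r)) * s =
        ι (54 * (Φ.D : ℚ) ^ 3 * y) + ι (54 * (Φ.D : ℚ) ^ 3) * s := by
      simp only [map_mul, map_pow, map_ofNat] at key ⊢
      linear_combination key
    have him0 : ∀ a b : ℚ, (ι a + ι b * s).im = b := fun a b => by simp [ι, s]
    have := congrArg QuadraticAlgebra.im key'
    rwa [him0, him0] at this
  set E := Φ.F.eval p r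
  set H := Φ.F.hess p r
  have hE : E ≠ 0 := by
    intro h0
    rw [h0] at him
    simp [hD] at him
  have hnorm : x ^ 3 = x₀ ^ 3 * sqNorm t ^ 3 := by
    have := congrArg sqNorm e
    rw [sqNorm_mul, sqNorm_pow, sqNorm_rat_add, sqNorm_rat_add] at this
    linear_combination this - h + sqNorm t ^ 3 * h₀
  have hN : sqNorm t = 36 * (Φ.X : ℚ) * H := by
    have hd : ((Φ.F.disc : ℤ) : ℚ) = -108 * (k : ℚ) := by rw [Φ.hdisc]; simp
    rw [sqNorm, ← hpr, ← hr]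
    simp only [H, M, CubicForm.hess, CubicForm.disc] at hd ⊢
    push_cast at hd
    linear_combination (-(36 * (Φ.X : ℚ) * p ^ 2) + 4 * r ^ 2 *
      ((Φ.F.c : ℚ) ^ 2 - 3 * Φ.F.b * Φ.F.d)) * c0 - 3 * r ^ 2 * hd
  have hgoal : 729 * E ^ 2 * x ^ 3 = H ^ 3 := by
    rw [hnorm, hN]
    refine mul_left_cancel₀ (pow_ne_zero 6 hD) ?_
    have hx' := Φ.hx
    linear_combination 729 * E ^ 2 * (36 * (Φ.X : ℚ) * H) ^ 3 *
      ((x₀ * (Φ.D : ℚ) ^ 2) ^ 2 + x₀ * (Φ.D : ℚ) ^ 2 * Φ.X + (Φ.X : ℚ) ^ 2) * hx' +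
      H ^ 3 * (5832 * E * (Φ.X : ℚ) ^ 3 + (Φ.D : ℚ) ^ 3) * him / 54
  have hne : p ≠ 0 ∨ r ≠ 0 := by
    by_contra hcon
    push Not at hcon
    exact hE (by simp [E, hcon.1, hcon.2, CubicForm.eval])
  obtain ⟨c, u, w, hc, hco, hu, hw⟩ := IntegralUniform.exists_coprime_multiple hne
  have hEc : E = c ^ 3 * ((Φ.F.eval u w : ℤ) : ℚ) := by
    simp only [E, hu, hw, CubicForm.eval]; push_cast; ring
  have hHc : H = c ^ 2 * ((Φ.F.hess u w : ℤ) : ℚ) := by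
    simp only [H, hu, hw, CubicForm.hess]; push_cast; ring
  refine ⟨u, w, hco, fun h0 => hE (by rw [hEc, h0]; simp), ?_⟩
  refine mul_left_cancel₀ (pow_ne_zero 6 hc) ?_
  rw [hEc, hHc] at hgoal
  linear_combination hgoal

/-- **The abscissae of one class.** -/
theorem class_abscissae (S : Finset ℕ) {k : ℤ} (hk : k ≠ 0) {x₀ y₀ : ℚ} (hx₀ : x₀ ≠ 0)
    (h₀ : y₀ ^ 2 = x₀ ^ 3 + (k : ℚ)) :
    ∃ xs : Set ℚ, xs.Finite ∧
      xs.ncard ≤ IntegralAverage.solBound 3 (S ∪ supportPrimes k).card ∧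
      ∀ x y : ℚ, (x, y) ∈ mordSPoints S k → (∃ t : SqAlg (k : ℚ),
        ratS (k : ℚ) y + sRoot (k : ℚ) = (ratS (k : ℚ) y₀ + sRoot (k : ℚ)) * t ^ 3) → x ∈ xs := by
  obtain ⟨Φ⟩ := nonempty_pointForm h₀
  obtain ⟨hfin, hcard⟩ := IntegralAverage.cubic_solutions (S ∪ supportPrimes k) (F := Φ.F)
    (by rw [Φ.hdisc]; exact mul_ne_zero (by norm_num) hk)
    (by rw [Φ.ha]; exact pow_ne_zero 3 Φ.hD)
  set V := IntegralAverage.valueSet (S ∪ supportPrimes k) fun p q => Φ.F.eval p q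
  set R : Set ℚ := {x | ∃ z ∈ V, 729 * ((Φ.F.eval z.1 z.2 : ℤ) : ℚ) ^ 2 * x ^ 3 =
    ((Φ.F.hess z.1 z.2 : ℤ) : ℚ) ^ 3}
  let g : ℚ → ℤ × ℤ := fun x => if hx : x ∈ R then hx.choose else 0
  have hg : ∀ x (hx : x ∈ R), g x = hx.choose := fun x hx => dif_pos hx
  have hmaps : Set.MapsTo g R V := fun x hx => by rw [hg x hx]; exact hx.choose_spec.1
  have hinj : Set.InjOn g R := by
    intro a ha b hb e
    rw [hg a ha, hg b hb] at e
    have h1 := ha.choose_spec.2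
    have h2 := hb.choose_spec.2
    rw [e] at h1
    have hne : ((Φ.F.eval hb.choose.1 hb.choose.2 : ℤ) : ℚ) ≠ 0 :=
      Int.cast_ne_zero.mpr hb.choose_spec.1.2.1
    refine (Odd.strictMono_pow (by decide : Odd 3)).injective
      (mul_left_cancel₀ (mul_ne_zero (by norm_num : (729 : ℚ) ≠ 0) (pow_ne_zero 2 hne)) ?_)
    exact h1.trans h2.symm
  refine ⟨R, Set.Finite.of_injOn hmaps hinj hfin,
    (Set.ncard_le_ncard_of_injOn g hmaps hinj hfin).trans hcard, ?_⟩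
  rintro x y ⟨hxy, hden⟩ ⟨t, ht⟩
  obtain ⟨u, w, hco, hne, heq⟩ := exists_form_value hx₀ h₀ hxy Φ ht
  refine ⟨(u, w), ⟨hco, hne, fun l hl hld => ?_⟩, heq⟩
  by_contra hbad
  rw [mem_union, not_or, mem_supportPrimes hk hl] at hbad
  obtain ⟨hlS, hlk⟩ := hbad
  have hlp : Prime (l : ℤ) := Nat.prime_iff_prime_int.1 hl
  replace hld : (l : ℤ) ∣ Φ.F.eval u w := hld
  have heq' : 729 * Φ.F.eval u w ^ 2 * x.num ^ 3 = Φ.F.hess u w ^ 3 * (x.den : ℤ) ^ 3 := by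
    have hd : (x.den : ℚ) ≠ 0 := by exact_mod_cast x.den_nz
    rw [← x.num_div_den] at heq
    field_simp at heq
    exact_mod_cast (by linear_combination heq :
      729 * ((Φ.F.eval u w : ℤ) : ℚ) ^ 2 * (x.num : ℚ) ^ 3 =
        ((Φ.F.hess u w : ℤ) : ℚ) ^ 3 * (x.den : ℚ) ^ 3)
  have hH : (l : ℤ) ∣ Φ.F.hess u w := by
    rcases hlp.dvd_mul.mp (heq' ▸ ((hld.pow two_ne_zero).mul_left 729).mul_right (x.num ^ 3) :
      (l : ℤ) ∣ Φ.F.hess u w ^ 3 * (x.den : ℤ) ^ 3) with h | h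
    · exact hlp.dvd_of_dvd_pow h
    · exact absurd (hden l hl (Int.natCast_dvd_natCast.mp (hlp.dvd_of_dvd_pow h))) hlS
  refine no_common_zero hlp ?_ hco hld hH
  rw [Φ.hdisc, show -108 * k = -18 * (6 * k) by ring]
  intro h
  rcases hlp.dvd_mul.mp h with h | h
  · refine hlk ?_
    rw [show (-18 : ℤ) = -((2 : ℤ) * 3 ^ 2) by norm_num, dvd_neg] at h
    rcases hlp.dvd_mul.mp h with h | h
    · exact (h.trans ⟨3, by norm_num⟩).mul_right k
    · exact ((hlp.dvd_of_dvd_pow h).trans ⟨2, by norm_num⟩).mul_right k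
  · exact hlk h

/-- **`S`-integral points against the classes.** -/
theorem mordSPoints_le_classes (S : Finset ℕ) {k : ℤ} (hk : k ≠ 0)
    [Finite (DescentClasses (k : ℚ))] :
    (mordSPoints S k).Finite ∧ (mordSPoints S k).ncard ≤ 2 + 2 *
      IntegralAverage.solBound 3 (S ∪ supportPrimes k).card *
        Nat.card (DescentClasses (k : ℚ)) := by
  haveI := Fintype.ofFinite (DescentClasses (k : ℚ))
  let rep : DescentClasses (k : ℚ) → NonzeroPoint (k : ℚ) := Quotient.out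
  choose xs hfin hcard hmem using fun c => class_abscissae S hk (rep c).2.2 (rep c).2.1
  let all : Finset ℚ := insert 0 (univ.biUnion fun c => (hfin c).toFinset)
  set N := IntegralAverage.solBound 3 (S ∪ supportPrimes k).card
  have hall : all.card ≤ 1 + N * Nat.card (DescentClasses (k : ℚ)) := by
    refine (card_insert_le _ _).trans ?_
    rw [add_comm]
    refine Nat.add_le_add_left (card_biUnion_le.trans
      ((sum_le_card_nsmul _ _ N fun c _ => ?_).trans_eq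
      (by rw [card_univ, Nat.card_eq_fintype_card, smul_eq_mul, mul_comm]))) 1
    rw [← Set.ncard_eq_toFinset_card _ (hfin c)]
    exact hcard c
  have hsub : mordSPoints S k ⊆ ⋃ x ∈ (all : Set ℚ),
      {P : ℚ × ℚ | P.2 ^ 2 = P.1 ^ 3 + ((0 : ℤ) : ℚ) * P.1 + (k : ℚ) ∧ P.1 = x} := by
    rintro ⟨x, y⟩ hP
    refine Set.mem_biUnion (x := x) ?_ ⟨by simpa using hP.1, rfl⟩
    by_cases hx : x = 0
    · subst hx; exact mem_coe.mpr (mem_insert_self _ _)
    let p : NonzeroPoint (k : ℚ) := ⟨(x, y), hP.1, hx⟩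
    obtain ⟨t, ht⟩ : CubeRel (k : ℚ) p (rep (Quotient.mk (cubeSetoid _) p)) :=
      Quotient.exact (Quotient.out_eq (Quotient.mk (cubeSetoid _) p)).symm
    exact mem_coe.mpr (mem_insert_of_mem (mem_biUnion.mpr ⟨_, mem_univ _,
      (hfin _).mem_toFinset.mpr (hmem _ x y hP ⟨_, ht⟩)⟩))
  have hU : (⋃ x ∈ (all : Set ℚ),
      {P : ℚ × ℚ | P.2 ^ 2 = P.1 ^ 3 + ((0 : ℤ) : ℚ) * P.1 + (k : ℚ) ∧ P.1 = x}).Finite :=
    all.finite_toSet.biUnion fun x _ => (IntegralAverage.fibre_bound 0 k x).1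
  refine ⟨hU.subset hsub, (Set.ncard_le_ncard hsub hU).trans ?_⟩
  refine ((Finset.set_ncard_biUnion_le all _).trans ((sum_le_card_nsmul _ _ 2 fun x _ =>
    (IntegralAverage.fibre_bound 0 k x).2).trans_eq (smul_eq_mul ..))).trans ?_
  nlinarith [hall]

end FA.BrumerSilverman
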