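import Fermat.Agent.BrumerSilverman.Field
import Fermat.Agent.BrumerSilverman.Points
import Fermat.Agent.ThueMahler.Shafarevich

/-!
# The theorem of Brumer and Silverman

A curve with good reduction outside `S` has `(c₄, c₆)`, after scaling, on one of `2 · 18 ^ (#S + 2)`
curves `y² = x³ + k` with the primes of `k` among those of `S`, `2` and `3`, at a point with
`S`-integral abscissa.
-/

set_option autoImplicit false
set_option linter.style.haveILetI false

noncomputable section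

open Finset WeierstrassCurve
open FA.ThueMahler (exists_scale padicValRat_prod_zpow)
open scoped Classical

namespace FA.BrumerSilverman

/-- Good reduction outside `S`. -/
def GoodOutside (S : Finset ℕ) (E : WeierstrassCurve ℚ) : Prop :=
  ∀ p : ℕ, ∀ [Fact p.Prime], p ∉ S → ∃ C : VariableChange ℚ_[p],
    HasGoodReduction ℤ_[p] (C • E.map (algebraMap ℚ ℚ_[p]))

/-- **The `S`-integral point of a curve.** -/
theorem exists_point_of_good {S : Finset ℕ} (E : WeierstrassCurve ℚ) [E.IsElliptic]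
    (hE : GoodOutside S E) : ∃ (δ : ℤ) (x y : ℚ) (C : VariableChange ℚ), δ ≠ 0 ∧
      (∀ q : ℕ, q.Prime → (q ∉ S → ¬ (q : ℤ) ∣ δ) ∧ δ.natAbs.factorization q ≤ 11) ∧
      (x, y) ∈ mordSPoints S (-1728 * δ) ∧ C • E = ⟨0, 0, 0, -x / 48, -y / 864⟩ := by
  have hΔ0 : E.Δ ≠ 0 := E.isUnit_Δ.ne_zero
  set P := E.Δ.num.natAbs.primeFactors ∪ E.Δ.den.primeFactors with hP
  have hPp : ∀ p ∈ P, p.Prime := fun p hp => by
    rcases Finset.mem_union.1 hp with h | h <;> exact Nat.prime_of_mem_primeFactors h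
  have hout : ∀ q : ℕ, q.Prime → q ∉ P → padicValRat q E.Δ = 0 := fun q hq hqP => by
    simp only [hP, Finset.mem_union, Nat.mem_primeFactors, not_or] at hqP
    have h1 : ¬ q ∣ E.Δ.num.natAbs := fun h => hqP.1 ⟨hq, h, by simpa using hΔ0⟩
    have h2 : ¬ q ∣ E.Δ.den := fun h => hqP.2 ⟨hq, h, E.Δ.den_nz⟩
    rw [padicValRat_def, padicValInt, padicValNat.eq_zero_of_not_dvd h1,
      padicValNat.eq_zero_of_not_dvd h2]
    simp
  set w : ℚ := ∏ p ∈ P, (p : ℚ) ^ (padicValRat p E.Δ / 12) with hw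
  have hw0 : w ≠ 0 := Finset.prod_ne_zero_iff.2 fun p hp =>
    zpow_ne_zero _ (Nat.cast_ne_zero.2 (hPp p hp).ne_zero)
  have hwval : ∀ q : ℕ, [Fact q.Prime] → padicValRat q w = padicValRat q E.Δ / 12 := by
    intro q hq
    rw [hw, padicValRat_prod_zpow P hPp]
    split_ifs with h
    · rfl
    · rw [hout q hq.1 h]; rfl
  set δ := E.Δ / w ^ 12 with hδ
  set x := E.c₄ / w ^ 4 with hx
  set y := E.c₆ / w ^ 6 with hy
  have hδ0 : δ ≠ 0 := div_ne_zero hΔ0 (pow_ne_zero _ hw0)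
  have hδval : ∀ q : ℕ, [Fact q.Prime] → padicValRat q δ = padicValRat q E.Δ % 12 := by
    intro q hq
    rw [hδ, padicValRat.div hΔ0 (pow_ne_zero _ hw0), padicValRat.pow, hwval q]
    push_cast
    omega
  have hgood : ∀ q : ℕ, [Fact q.Prime] → q ∉ S → padicValRat q δ = 0 ∧ ‖(x : ℚ_[q])‖ ≤ 1 := by
    intro q hq hqS
    obtain ⟨C, hC⟩ := hE q hqS
    obtain ⟨k, h4, h12⟩ := exists_scale E hC
    have hq1 : (1 : ℝ) < q := by exact_mod_cast hq.1.one_lt
    have hq0 : (0 : ℝ) < q := by linarith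
    have hn : padicValRat q E.Δ = 12 * k := by
      rw [Padic.norm_eq_zpow_neg_valuation (Rat.cast_ne_zero.2 hΔ0), Padic.valuation_ratCast,
        ← zpow_natCast, ← zpow_mul, ← zpow_add₀ hq0.ne', zpow_eq_one_iff_right₀ hq0.le hq1.ne']
        at h12
      omega
    refine ⟨by rw [hδval q, hn]; simp, ?_⟩
    rw [hx, Rat.cast_div, Rat.cast_pow, norm_div, norm_pow,
      Padic.norm_eq_zpow_neg_valuation (Rat.cast_ne_zero.2 hw0), Padic.valuation_ratCast,
      hwval q, hn, Int.mul_ediv_cancel_left _ (by norm_num : (12 : ℤ) ≠ 0), zpow_neg, inv_pow,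
      div_inv_eq_mul, mul_comm]
    exact h4
  have hden : ∀ r : ℚ, ∀ q : ℕ, q.Prime → q ∣ r.den → ∀ [Fact q.Prime], padicValRat q r < 0 := by
    intro r q hq hd _
    have hn : ¬ q ∣ r.num.natAbs := fun h =>
      Nat.not_coprime_of_dvd_of_dvd hq.one_lt h hd r.reduced
    have hv : 1 ≤ padicValNat q r.den := one_le_padicValNat_of_dvd r.den_nz hd
    rw [padicValRat_def, padicValInt, padicValNat.eq_zero_of_not_dvd hn]
    omega
  have hδint : δ.den = 1 := by
    by_contra h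
    obtain ⟨q, hq, hd⟩ := Nat.exists_prime_and_dvd h
    have : Fact q.Prime := ⟨hq⟩
    have h1 := hden δ q hq hd
    rw [hδval q] at h1
    omega
  have hδcast : δ = (δ.num : ℚ) := by
    conv_lhs => rw [← δ.num_div_den, hδint, Nat.cast_one, div_one]
  have hn0 : δ.num.natAbs ≠ 0 := Int.natAbs_ne_zero.2 (Rat.num_ne_zero.2 hδ0)
  have hfac : ∀ q : ℕ, q.Prime →
      (q ∉ S → ¬ (q : ℤ) ∣ δ.num) ∧ δ.num.natAbs.factorization q ≤ 11 := by
    intro q hqp
    have : Fact q.Prime := ⟨hqp⟩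
    have hv : padicValRat q δ = δ.num.natAbs.factorization q := by
      rw [Nat.factorization_def _ hqp, padicValRat_def, hδint]
      simp [padicValInt]
    have h1 := hδval q
    refine ⟨fun hqS hd => ?_, by omega⟩
    have hpos := hqp.factorization_pos_of_dvd hn0 (Int.natCast_dvd.mp hd)
    have := (hgood q hqS).1
    omega
  let : Invertible (2 : ℚ) := invertibleOfNonzero (by norm_num)
  let : Invertible (3 : ℚ) := invertibleOfNonzero (by norm_num)
  set C₀ := E.toShortNF with hC₀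
  set E₁ := C₀ • E with hE₁
  have : E₁.IsShortNF := E.toShortNF_spec
  set u₀ : ℚ := ((C₀.u⁻¹ : ℚˣ) : ℚ) with hu₀
  have hu₀0 : u₀ ≠ 0 := Units.ne_zero _
  refine ⟨δ.num, x, y, ⟨Units.mk0 (w * u₀) (mul_ne_zero hw0 hu₀0), 0, 0, 0⟩ * C₀,
    Rat.num_ne_zero.2 hδ0, hfac, ⟨?_, fun q hq hd => ?_⟩, ?_⟩
  · show y ^ 2 = x ^ 3 + ((-1728 * δ.num : ℤ) : ℚ)
    push_cast
    rw [← hδcast, hx, hy, hδ]
    field_simp
    linear_combination E.c_relation
  · by_contra hqS
    have : Fact q.Prime := ⟨hq⟩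
    have h1 := hden x q hq hd
    have h2 := (hgood q hqS).2
    rw [Padic.norm_le_one_iff_val_nonneg, Padic.valuation_ratCast] at h2
    omega
  · have h4 := E.variableChange_c₄ C₀
    rw [← hE₁, c₄_of_isShortNF, ← hu₀] at h4
    have h6 := E.variableChange_c₆ C₀
    rw [← hE₁, c₆_of_isShortNF, ← hu₀] at h6
    rw [mul_smul, ← hE₁]
    ext
    all_goals simp only [variableChange_a₁, variableChange_a₂, variableChange_a₃,
      variableChange_a₄, variableChange_a₆, E₁.a₁_of_isShortNF, E₁.a₂_of_isShortNF,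
      E₁.a₃_of_isShortNF, Units.val_inv_eq_inv_val, Units.val_mk0]
    · simp
    · simp
    · simp
    · rw [hx, mul_inv]
      field_simp
      linear_combination -h4
    · rw [hy, mul_inv]
      field_simp
      linear_combination -h6

/-- `S`, `2` and `3`. -/
abbrev withSix (S : Finset ℕ) : Finset ℕ := S ∪ {2, 3}

/-- The values of `k`. -/
def curveConstants (S : Finset ℕ) : Finset ℤ :=
  (univ : Finset (Bool × (withSix S → Fin 18))).image fun e =>
    (if e.1 then 1 else -1) * ∏ p : withSix S, ((p : ℕ) : ℤ) ^ (e.2 p : ℕ)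

theorem card_withSix_le (S : Finset ℕ) : (withSix S).card ≤ S.card + 2 :=
  (card_union_le _ _).trans (Nat.add_le_add_left card_le_two _)

theorem card_curveConstants (S : Finset ℕ) : (curveConstants S).card ≤ 2 * 18 ^ (S.card + 2) := by
  refine card_image_le.trans ?_
  rw [card_univ, Fintype.card_prod, Fintype.card_bool, Fintype.card_fun, Fintype.card_fin,
    Fintype.card_coe]
  exact Nat.mul_le_mul_left _ (Nat.pow_le_pow_right (by norm_num) (card_withSix_le S))

theorem mem_curveConstants {S : Finset ℕ} (hS : ∀ p ∈ S, p.Prime) {k : ℤ}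
    (hk : k ∈ curveConstants S) : k ≠ 0 ∧ supportPrimes k ⊆ withSix S := by
  obtain ⟨e, -, rfl⟩ := mem_image.mp hk
  have hP : ∀ p : withSix S, (p : ℕ).Prime := fun p => by
    rcases mem_union.mp p.2 with h | h
    · exact hS _ h
    · rcases mem_insert.mp h with h | h
      · rw [h]; exact Nat.prime_two
      · rw [mem_singleton.mp h]; exact Nat.prime_three
  have hne : (if e.1 then (1 : ℤ) else -1) * ∏ p : withSix S, ((p : ℕ) : ℤ) ^ (e.2 p : ℕ) ≠ 0 :=
    mul_ne_zero (by split_ifs <;> norm_num)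
      (prod_ne_zero_iff.mpr fun p _ => pow_ne_zero _ (Nat.cast_ne_zero.mpr (hP p).ne_zero))
  refine ⟨hne, fun q hq => ?_⟩
  have hqp := Nat.prime_of_mem_primeFactors hq
  have hqi : Prime (q : ℤ) := Nat.prime_iff_prime_int.1 hqp
  rcases hqi.dvd_mul.mp ((mem_supportPrimes hne hqp).mp hq) with h | h
  · refine mem_union_right _ ?_
    have h6 : q ∣ 2 * 3 := by
      have h' : (q : ℤ) ∣ ((6 : ℕ) : ℤ) := h
      exact Int.natCast_dvd_natCast.mp h'
    rcases hqp.dvd_mul.mp h6 with h | h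
    · simp [(Nat.prime_dvd_prime_iff_eq hqp Nat.prime_two).mp h]
    · simp [(Nat.prime_dvd_prime_iff_eq hqp Nat.prime_three).mp h]
  rcases hqi.dvd_mul.mp h with h | h
  · exact absurd (isUnit_of_dvd_unit h (by split_ifs <;> simp)) hqi.not_isUnit
  · obtain ⟨p, -, hp⟩ := hqi.exists_mem_finset_dvd h
    have := (Nat.prime_dvd_prime_iff_eq hqp (hP p)).mp
      (Int.natCast_dvd_natCast.mp (hqi.dvd_of_dvd_pow hp))
    exact this ▸ p.2

theorem constant_mem {S : Finset ℕ} {δ : ℤ} (hδ : δ ≠ 0)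
    (h : ∀ q : ℕ, q.Prime → (q ∉ S → ¬ (q : ℤ) ∣ δ) ∧ δ.natAbs.factorization q ≤ 11) :
    -1728 * δ ∈ curveConstants S := by
  set n := (-1728 * δ).natAbs
  have hn : n = 2 ^ 6 * 3 ^ 3 * δ.natAbs := by
    simp only [n]; rw [Int.natAbs_mul]; norm_num
  have hd0 : δ.natAbs ≠ 0 := Int.natAbs_ne_zero.mpr hδ
  have hn0 : n ≠ 0 := by rw [hn]; positivity
  have hsub : n.primeFactors ⊆ withSix S := by
    intro q hq
    have hqp := Nat.prime_of_mem_primeFactors hq
    have hd := Nat.dvd_of_mem_primeFactors hq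
    rw [hn] at hd
    rcases hqp.dvd_mul.mp hd with hd | hd
    · rcases hqp.dvd_mul.mp hd with hd | hd
      · simp [(Nat.prime_dvd_prime_iff_eq hqp Nat.prime_two).mp (hqp.dvd_of_dvd_pow hd)]
      · simp [(Nat.prime_dvd_prime_iff_eq hqp Nat.prime_three).mp (hqp.dvd_of_dvd_pow hd)]
    · exact mem_union_left _ (Classical.byContradiction fun hs =>
        (h q hqp).1 hs (Int.natCast_dvd.mpr hd))
  have hbound : ∀ q : ℕ, n.factorization q < 18 := by
    intro q
    by_cases hqp : q.Prime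
    · rw [hn, Nat.factorization_mul (by norm_num) hd0, Nat.factorization_mul (by norm_num)
        (by norm_num), Nat.factorization_pow, Nat.factorization_pow]
      simp only [Finsupp.add_apply, Finsupp.smul_apply, smul_eq_mul]
      rw [Nat.prime_two.factorization, Nat.prime_three.factorization]
      have := (h q hqp).2
      simp only [Finsupp.single_apply]
      split_ifs <;> omega
    · rw [Nat.factorization_eq_zero_of_not_prime n hqp]; norm_num
  refine mem_image.mpr ⟨(decide (0 < -1728 * δ), fun p => ⟨n.factorization p, hbound p⟩),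
    mem_univ _, ?_⟩
  have hprod : (∏ p : withSix S, ((p : ℕ) : ℤ) ^ n.factorization p) = (n : ℤ) := by
    rw [Finset.univ_eq_attach,
      Finset.prod_attach (withSix S) (fun p => (p : ℤ) ^ n.factorization p)]
    rw [← prod_subset hsub (fun p _ hp => by
      rw [← Nat.support_factorization, Finsupp.notMem_support_iff] at hp
      rw [hp, pow_zero])]
    conv_rhs => rw [← Nat.prod_factorization_pow_eq_self hn0]
    rw [Finsupp.prod, Nat.support_factorization]
    push_cast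
    rfl
  simp only [hprod, decide_eq_true_eq]
  simp only [n]
  split_ifs with hp <;> omega

theorem solBound_eq (t : ℕ) :
    IntegralAverage.solBound 3 t = IntegralAverage.solBound 3 0 * (5 ^ 228) ^ t := by
  simp only [IntegralAverage.solBound]
  rw [mul_assoc, ← pow_mul, ← pow_add]
  congr 2
  norm_num [Nat.factorial]
  ring

/-- **Brumer–Silverman.** -/
theorem exists_models_of {θ : ℝ} (hθ : 0 ≤ θ) (hT : TorsionExponent θ) {ε : ℝ} (hε : 0 < ε) :
    ∃ C : ℝ, 0 ≤ C ∧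
    ∀ S : Finset ℕ, (∀ p ∈ S, p.Prime) → ∃ T : Set (WeierstrassCurve ℚ), T.Finite ∧
      (T.ncard : ℝ) ≤ C * ((∏ p ∈ S, p : ℕ) : ℝ) ^ (θ + ε) ∧
      ∀ (E : WeierstrassCurve ℚ) [E.IsElliptic], GoodOutside S E →
        ∃ v : VariableChange ℚ, v • E ∈ T := by
  obtain ⟨A, hA, hcl⟩ := exists_classes_bound_of hθ hT (half_pos hε)
  obtain ⟨q, hq⟩ : ∃ q : ℕ, q = 5 ^ 228 := ⟨_, rfl⟩
  have hq0 : 0 < q := hq ▸ Nat.pow_pos (by norm_num)
  have hq1 : (1 : ℝ) ≤ (q : ℝ) := by exact_mod_cast hq0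
  set c := 18 * q
  obtain ⟨B, hB, hpow⟩ := exists_pow_card_le c (half_pos hε)
  obtain ⟨a, ha⟩ : ∃ a : ℕ, a = IntegralAverage.solBound 3 0 := ⟨_, rfl⟩
  set D : ℝ := 2 + 2 * (a : ℝ) * (q : ℝ) ^ 2 * (A * (6 : ℝ) ^ (θ + ε / 2))
  refine ⟨2 * 18 ^ 2 * D * B, by positivity, fun S hS => ?_⟩
  set f : ℚ × ℚ → WeierstrassCurve ℚ := fun p => ⟨0, 0, 0, -p.1 / 48, -p.2 / 864⟩
  set L := curveConstants S
  have hk : ∀ k ∈ L, k ≠ 0 ∧ supportPrimes k ⊆ withSix S := fun k h => mem_curveConstants hS h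
  set M : ℝ := ((∏ p ∈ S, p : ℕ) : ℝ)
  have hM : 1 ≤ M := Nat.one_le_cast.mpr (Finset.prod_pos fun p hp => (hS p hp).pos)
  have hR : ∀ k ∈ L, (supportProd k : ℝ) ≤ 6 * M := by
    intro k h
    have h6 : (∏ p ∈ withSix S, p) ≤ 6 * ∏ p ∈ S, p := by
      have h := prod_union_inter (s₁ := S) (s₂ := ({2, 3} : Finset ℕ)) (f := fun p : ℕ => p)
      rw [show ∏ p ∈ ({2, 3} : Finset ℕ), p = 6 by rfl] at h
      rw [mul_comm 6, ← h]
      exact Nat.le_mul_of_pos_right _ (prod_pos fun p hp => (hS p (mem_inter.mp hp).1).pos)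
    have : supportProd k ≤ 6 * ∏ p ∈ S, p := (prod_le_prod_of_subset_of_one_le' (hk k h).2
      fun p hp _ => by
        rcases mem_union.mp hp with hp | hp
        · exact (hS p hp).one_le
        · rcases mem_insert.mp hp with rfl | hp
          · norm_num
          · rw [mem_singleton.mp hp]; norm_num).trans h6
    simp only [M]
    exact_mod_cast this
  have hpts : ∀ k ∈ L, (mordSPoints S k).Finite ∧
      ((mordSPoints S k).ncard : ℝ) ≤ D * (q : ℝ) ^ S.card * M ^ (θ + ε / 2) := by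
    intro k h
    obtain ⟨hfin, hcard⟩ := hcl k (hk k h).1
    obtain ⟨h1, h2⟩ := mordSPoints_le_classes S (hk k h).1
    refine ⟨h1, ?_⟩
    have ht : (S ∪ supportPrimes k).card ≤ S.card + 2 :=
      (card_le_card (union_subset subset_union_left (hk k h).2)).trans (card_withSix_le S)
    have hsol : (IntegralAverage.solBound 3 (S ∪ supportPrimes k).card : ℝ) ≤
        (a : ℝ) * ((q : ℝ) ^ S.card * (q : ℝ) ^ 2) := by
      rw [solBound_eq, ← hq, ← ha, ← pow_add]
      push_cast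
      exact mul_le_mul_of_nonneg_left (pow_le_pow_right₀ hq1 ht)
        (Nat.cast_nonneg _)
    have hclass : (Nat.card (DescentClasses (k : ℚ)) : ℝ) ≤
        A * ((6 : ℝ) ^ (θ + ε / 2) * M ^ (θ + ε / 2)) := by
      rw [← Real.mul_rpow (by norm_num) (by linarith)]
      exact hcard.trans (mul_le_mul_of_nonneg_left
        (Real.rpow_le_rpow (Nat.cast_nonneg _) (hR k h) (by positivity)) hA)
    have hX : (1 : ℝ) ≤ (q : ℝ) ^ S.card * M ^ (θ + ε / 2) :=
      one_le_mul_of_one_le_of_one_le (one_le_pow₀ hq1)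
        (Real.one_le_rpow hM (by positivity))
    have h2' : ((mordSPoints S k).ncard : ℝ) ≤ 2 + 2 *
        (IntegralAverage.solBound 3 (S ∪ supportPrimes k).card : ℝ) *
          (Nat.card (DescentClasses (k : ℚ)) : ℝ) := by exact_mod_cast h2
    refine h2'.trans ?_
    have h3 := mul_le_mul hsol hclass (Nat.cast_nonneg _) (by positivity)
    have e : D * (q : ℝ) ^ S.card * M ^ (θ + ε / 2) =
        2 * ((q : ℝ) ^ S.card * M ^ (θ + ε / 2)) +
          2 * ((a : ℝ) * ((q : ℝ) ^ S.card * (q : ℝ) ^ 2) *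
            (A * ((6 : ℝ) ^ (θ + ε / 2) * M ^ (θ + ε / 2)))) := by
      simp only [D]; ring
    rw [e, mul_assoc (2 : ℝ)]
    exact add_le_add (le_mul_of_one_le_right (by norm_num) hX)
      (mul_le_mul_of_nonneg_left h3 (by norm_num))
  set T : Set (WeierstrassCurve ℚ) := ⋃ k ∈ (L : Set ℤ), f '' mordSPoints S k
  have hfin : T.Finite := L.finite_toSet.biUnion fun k h => (hpts k h).1.image f
  refine ⟨T, hfin, ?_, fun E _ hE => ?_⟩
  · have h1 : T.ncard ≤ ∑ k ∈ L, (mordSPoints S k).ncard :=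
      (Finset.set_ncard_biUnion_le L _).trans
        (sum_le_sum fun k h => Set.ncard_image_le (hpts k h).1)
    have hc := hpow S hS
    calc (T.ncard : ℝ) ≤ ∑ k ∈ L, ((mordSPoints S k).ncard : ℝ) := by exact_mod_cast h1
      _ ≤ ∑ _k ∈ L, D * (q : ℝ) ^ S.card * M ^ (θ + ε / 2) :=
          sum_le_sum fun k h => (hpts k h).2
      _ = (L.card : ℝ) * (D * (q : ℝ) ^ S.card * M ^ (θ + ε / 2)) := by
          rw [sum_const, nsmul_eq_mul]
      _ ≤ (2 * 18 ^ S.card * 18 ^ 2) * (D * (q : ℝ) ^ S.card * M ^ (θ + ε / 2)) := by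
          refine mul_le_mul_of_nonneg_right ?_ (by positivity)
          rw [mul_assoc, ← pow_add]
          exact_mod_cast card_curveConstants S
      _ = 2 * 18 ^ 2 * D * ((c : ℝ) ^ S.card * M ^ (θ + ε / 2)) := by
          simp only [c]; push_cast; rw [mul_pow]; ring
      _ ≤ 2 * 18 ^ 2 * D * ((B * M ^ (ε / 2)) * M ^ (θ + ε / 2)) := by
          refine mul_le_mul_of_nonneg_left (mul_le_mul_of_nonneg_right hc (by positivity))
            (by positivity)
      _ = _ := by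
          rw [show M ^ (θ + ε) = M ^ (ε / 2) * M ^ (θ + ε / 2) by
            rw [← Real.rpow_add (by linarith)]; ring_nf]
          ring
  · obtain ⟨δ, x, y, v, hδ, hfac, hmem, hv⟩ := exists_point_of_good E hE
    exact ⟨v, Set.mem_biUnion (x := -1728 * δ) (constant_mem hδ hfac) ⟨(x, y), hmem, hv.symm⟩⟩

/-- **Pairwise non-isomorphic curves.** -/
theorem exists_count_bound_of {θ : ℝ} (hθ : 0 ≤ θ) (hT : TorsionExponent θ) {ε : ℝ}
    (hε : 0 < ε) : ∃ C : ℝ, 0 ≤ C ∧
    ∀ S : Finset ℕ, (∀ p ∈ S, p.Prime) → ∀ W : Set (WeierstrassCurve ℚ),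
      (∀ E ∈ W, ∃ _ : E.IsElliptic, GoodOutside S E) →
      (∀ E ∈ W, ∀ E' ∈ W, (∃ v : VariableChange ℚ, v • E = E') → E = E') →
      W.Finite ∧ (W.ncard : ℝ) ≤ C * ((∏ p ∈ S, p : ℕ) : ℝ) ^ (θ + ε) := by
  obtain ⟨C, hC, h⟩ := exists_models_of hθ hT hε
  refine ⟨C, hC, fun S hS W hW hiso => ?_⟩
  obtain ⟨T, hT, hcard, hmodel⟩ := h S hS
  have hv : ∀ E ∈ W, ∃ v : VariableChange ℚ, v • E ∈ T := fun E hE => by
    obtain ⟨_, hg⟩ := hW E hE
    exact hmodel E hg
  choose v hv using hv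
  let g : WeierstrassCurve ℚ → WeierstrassCurve ℚ := fun E =>
    if hE : E ∈ W then v E hE • E else E
  have hmaps : Set.MapsTo g W T := fun E hE => by simpa [g, hE] using hv E hE
  have hinj : Set.InjOn g W := by
    intro E hE E' hE' e
    refine hiso E hE E' hE' ⟨(v E' hE')⁻¹ * v E hE, ?_⟩
    simp only [g, hE, hE', dif_pos] at e
    rw [mul_smul, e, inv_smul_smul]
  refine ⟨Set.Finite.of_injOn hmaps hinj hT, le_trans ?_ hcard⟩
  exact_mod_cast Set.ncard_le_ncard_of_injOn g hmaps hinj hT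

/-- **Integral points.** -/
theorem exists_integral_bound_of {θ : ℝ} (hθ : 0 ≤ θ) (hT : TorsionExponent θ) {ε : ℝ}
    (hε : 0 < ε) : ∃ C : ℝ, 0 ≤ C ∧ ∀ k : ℤ, k ≠ 0 →
    {p : ℤ × ℤ | p.2 ^ 2 = p.1 ^ 3 + k}.Finite ∧
    ({p : ℤ × ℤ | p.2 ^ 2 = p.1 ^ 3 + k}.ncard : ℝ) ≤ C * |(k : ℝ)| ^ (θ + ε) := by
  obtain ⟨A, hA, hcl⟩ := exists_classes_bound_of hθ hT (half_pos hε)
  obtain ⟨q, hq⟩ : ∃ q : ℕ, q = 5 ^ 228 := ⟨_, rfl⟩
  obtain ⟨a, ha⟩ : ∃ a : ℕ, a = IntegralAverage.solBound 3 0 := ⟨_, rfl⟩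
  obtain ⟨B, hB, hpow⟩ := exists_pow_card_le q (half_pos hε)
  refine ⟨(2 + 2 * a * B * A) * (6 : ℝ) ^ (θ + ε), by positivity, fun k hk => ?_⟩
  obtain ⟨hfin, hcard⟩ := hcl k hk
  obtain ⟨h1, h2⟩ := mordSPoints_le_classes ∅ hk
  rw [Finset.empty_union, solBound_eq, ← hq, ← ha] at h2
  set g : ℤ × ℤ → ℚ × ℚ := fun p => ((p.1 : ℚ), (p.2 : ℚ))
  have hmaps : Set.MapsTo g {p : ℤ × ℤ | p.2 ^ 2 = p.1 ^ 3 + k} (mordSPoints ∅ k) := fun p hp =>
    ⟨by simp only [g]; exact_mod_cast hp, fun l hl hd => absurd hd (by simp [g, hl.ne_one])⟩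
  have hinj : Set.InjOn g {p : ℤ × ℤ | p.2 ^ 2 = p.1 ^ 3 + k} := fun p _ r _ e => by
    simp only [g, Prod.mk.injEq, Int.cast_inj] at e
    exact Prod.ext e.1 e.2
  refine ⟨Set.Finite.of_injOn hmaps hinj h1, ?_⟩
  set R : ℝ := (supportProd k : ℝ)
  have hR : 1 ≤ R := Nat.one_le_cast.mpr (supportProd_pos k)
  have h3 : ({p : ℤ × ℤ | p.2 ^ 2 = p.1 ^ 3 + k}.ncard : ℝ) ≤
      2 + 2 * ((a : ℝ) * (q : ℝ) ^ (supportPrimes k).card) *
        (Nat.card (DescentClasses (k : ℚ)) : ℝ) := by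
    exact_mod_cast (Set.ncard_le_ncard_of_injOn g hmaps hinj h1).trans h2
  have hP := hpow (supportPrimes k) fun p hp => Nat.prime_of_mem_primeFactors hp
  have hRe : R ^ (θ + ε) = R ^ (ε / 2) * R ^ (θ + ε / 2) := by
    rw [← Real.rpow_add (by linarith)]; ring_nf
  calc _ ≤ _ := h3
    _ ≤ 2 + 2 * ((a : ℝ) * (B * R ^ (ε / 2))) * (A * R ^ (θ + ε / 2)) := by
        refine add_le_add le_rfl (mul_le_mul (mul_le_mul_of_nonneg_left
          (mul_le_mul_of_nonneg_left hP (Nat.cast_nonneg _)) (by norm_num)) hcard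
          (Nat.cast_nonneg _) (by positivity))
    _ ≤ (2 + 2 * a * B * A) * R ^ (θ + ε) := by
        rw [add_mul, hRe]
        refine add_le_add (le_mul_of_one_le_right (by norm_num) (one_le_mul_of_one_le_of_one_le
          (Real.one_le_rpow hR (by positivity)) (Real.one_le_rpow hR (by positivity))))
          (le_of_eq ?_)
        ring
    _ ≤ (2 + 2 * a * B * A) * ((6 : ℝ) ^ (θ + ε) * |(k : ℝ)| ^ (θ + ε)) := by
        rw [← Real.mul_rpow (by norm_num) (abs_nonneg _)]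
        exact mul_le_mul_of_nonneg_left
          (Real.rpow_le_rpow (by linarith) (supportProd_le hk) (by positivity)) (by positivity)
    _ = _ := by ring

theorem exists_models {ε : ℝ} (hε : 0 < ε) : ∃ C : ℝ, 0 ≤ C ∧
    ∀ S : Finset ℕ, (∀ p ∈ S, p.Prime) → ∃ T : Set (WeierstrassCurve ℚ), T.Finite ∧
      (T.ncard : ℝ) ≤ C * ((∏ p ∈ S, p : ℕ) : ℝ) ^ (1 / 2 + ε) ∧
      ∀ (E : WeierstrassCurve ℚ) [E.IsElliptic], GoodOutside S E →
        ∃ v : VariableChange ℚ, v • E ∈ T :=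
  exists_models_of (by norm_num) torsionExponent_half hε

theorem exists_count_bound {ε : ℝ} (hε : 0 < ε) : ∃ C : ℝ, 0 ≤ C ∧
    ∀ S : Finset ℕ, (∀ p ∈ S, p.Prime) → ∀ W : Set (WeierstrassCurve ℚ),
      (∀ E ∈ W, ∃ _ : E.IsElliptic, GoodOutside S E) →
      (∀ E ∈ W, ∀ E' ∈ W, (∃ v : VariableChange ℚ, v • E = E') → E = E') →
      W.Finite ∧ (W.ncard : ℝ) ≤ C * ((∏ p ∈ S, p : ℕ) : ℝ) ^ (1 / 2 + ε) :=
  exists_count_bound_of (by norm_num) torsionExponent_half hε

end FA.BrumerSilverman
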