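import Fermat.Agent.BrumerSilverman.Key
import Fermat.Agent.MordellAverage.Main
import Fermat.Agent.TwoTorsionBound.Classes

/-!
# The descent by the isogeny bounds the index by the class number

For a point of `y² = x³ + k` the integer `Y + s D³`, with `s² = k`, has exponents divisible by
three away from the primes of `6 k`; two points with the same class up to cubes are in one coset of
the image of the dual isogeny.
-/

set_option autoImplicit false
set_option linter.style.haveILetI false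

noncomputable section

open WeierstrassCurve NumberField IsDedekindDomain Module Finset
open FA.MordellAverage
open scoped Classical

namespace FA.BrumerSilverman

/-- Coordinates in lowest terms. -/
theorem exists_coprime_coords {k : ℤ} {x y : ℚ} (hxy : y ^ 2 = x ^ 3 + (k : ℚ)) :
    ∃ X Y D : ℤ, D ≠ 0 ∧ IsCoprime X D ∧ x * (D : ℚ) ^ 2 = X ∧ y * (D : ℚ) ^ 3 = Y ∧
      Y ^ 2 = X ^ 3 + k * D ^ 6 := by
  have e : y.num ^ 2 * (x.den : ℤ) ^ 3 = (x.num ^ 3 + k * (x.den : ℤ) ^ 3) * (y.den : ℤ) ^ 2 := by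
    have hxd : (x.den : ℚ) ≠ 0 := by exact_mod_cast x.den_nz
    have hyd : (y.den : ℚ) ≠ 0 := by exact_mod_cast y.den_nz
    rw [← x.num_div_den, ← y.num_div_den] at hxy
    field_simp at hxy
    exact_mod_cast (by linear_combination hxy : (y.num : ℚ) ^ 2 * (x.den : ℚ) ^ 3 =
      ((x.num : ℚ) ^ 3 + k * (x.den : ℚ) ^ 3) * (y.den : ℚ) ^ 2)
  have hpow : x.den ^ 3 = y.den ^ 2 := by
    have h1 : IsCoprime ((x.den : ℤ) ^ 3) (x.num ^ 3 + k * (x.den : ℤ) ^ 3) :=
      (Rat.isCoprime_num_den x).symm.pow.add_mul_right_right _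
    have h2 : IsCoprime ((y.den : ℤ) ^ 2) (y.num ^ 2) := (Rat.isCoprime_num_den y).symm.pow
    refine Nat.dvd_antisymm (Int.natCast_dvd_natCast.1 ?_) (Int.natCast_dvd_natCast.1 ?_) <;>
      push_cast
    · exact h1.dvd_of_dvd_mul_left ⟨y.num ^ 2, by linarith⟩
    · exact h2.dvd_of_dvd_mul_left ⟨x.num ^ 3 + k * (x.den : ℤ) ^ 3, by linarith⟩
  obtain ⟨d, hxd, hyd⟩ := Nat.exists_eq_pow_of_exponent_coprime_of_pow_eq_pow
    (by decide : Nat.Coprime 3 2) hpow
  have hd0 : (d : ℤ) ≠ 0 := by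
    intro h; exact x.den_nz (by rw [hxd]; simp [Int.natCast_eq_zero.1 h])
  refine ⟨x.num, y.num, d, hd0, ?_, ?_, ?_, ?_⟩
  · have h := Rat.isCoprime_num_den x
    rw [hxd, Nat.cast_pow] at h
    exact (IsCoprime.pow_right_iff (by norm_num)).mp h
  · have := Rat.mul_den_eq_num x
    rw [hxd] at this
    simpa using this
  · have := Rat.mul_den_eq_num y
    rw [hyd] at this
    simpa using this
  · rw [hxd, hyd] at e
    push_cast at e
    exact mul_right_cancel₀ (pow_ne_zero 6 hd0) (by linear_combination e)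

/-- The primes of `6 k`. -/
abbrev supportPrimes (k : ℤ) : Finset ℕ := (6 * k).natAbs.primeFactors

/-- The product of the primes of `6 k`. -/
abbrev supportProd (k : ℤ) : ℕ := ∏ p ∈ supportPrimes k, p

theorem mem_supportPrimes {k : ℤ} (hk : k ≠ 0) {p : ℕ} (hp : p.Prime) :
    p ∈ supportPrimes k ↔ (p : ℤ) ∣ 6 * k := by
  rw [Nat.mem_primeFactors, Int.natCast_dvd]
  exact ⟨fun h => h.2.1, fun h => ⟨hp, h, Int.natAbs_ne_zero.mpr (mul_ne_zero (by norm_num) hk)⟩⟩

variable {K : Type} [Field K] [NumberField K]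

/-- At most four primes above each prime of `6 k`, in a field of degree at most two. -/
theorem exists_support (hK : finrank ℚ K ≤ 2) {k : ℤ} (hk : k ≠ 0) :
    ∃ T : Finset (HeightOneSpectrum (𝓞 K)), T.card ≤ 4 * (supportPrimes k).card ∧
      ∀ v ∉ T, (((6 * k : ℤ)) : 𝓞 K) ∉ v.asIdeal := by
  have h6 : 6 * k ≠ 0 := mul_ne_zero (by norm_num) hk
  have h6' : ((6 * k : ℤ) : 𝓞 K) ≠ 0 := Int.cast_ne_zero.mpr h6
  set T := (Ideal.finite_factors (span_singleton_ne h6')).toFinset
  have hmemT : ∀ {v}, v ∈ T → ((6 * k : ℤ) : 𝓞 K) ∈ v.asIdeal := fun {v} hv =>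
    Ideal.dvd_span_singleton.mp
      ((Set.Finite.mem_toFinset (Ideal.finite_factors (span_singleton_ne h6'))).mp hv)
  refine ⟨T, ?_, fun v hv h => hv ((Set.Finite.mem_toFinset _).mpr
    (Ideal.dvd_span_singleton.mpr h))⟩
  have hsub : T ⊆ (supportPrimes k).biUnion fun p =>
      T.filter fun v => (p : 𝓞 K) ∈ v.asIdeal := by
    intro v hv
    have h := hmemT hv
    have h' : (((6 * k).natAbs : ℕ) : 𝓞 K) ∈ v.asIdeal := by
      rw [← Int.cast_natCast (R := 𝓞 K)]
      rcases Int.natAbs_eq (6 * k) with e | e <;> rw [e] at h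
      · exact h
      · rw [Int.cast_neg] at h
        exact v.asIdeal.neg_mem_iff.mp h
    rw [← Nat.prod_primeFactorsList (Int.natAbs_ne_zero.mpr h6), ← Multiset.prod_coe] at h'
    rw [← eq_natCast (algebraMap ℕ (𝓞 K)), map_multiset_prod] at h'
    obtain ⟨x, hx, hxv⟩ := (v.isPrime.multiset_prod_mem_iff_exists_mem _).mp h'
    obtain ⟨p, hp, rfl⟩ := Multiset.mem_map.mp hx
    exact mem_biUnion.mpr ⟨p, List.mem_toFinset.mpr hp,
      mem_filter.mpr ⟨hv, by simpa using hxv⟩⟩
  refine (card_le_card hsub).trans (card_biUnion_le.trans ?_)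
  refine (sum_le_card_nsmul _ _ 4 fun p hp => ?_).trans_eq (by rw [smul_eq_mul, mul_comm])
  have hpp := Nat.prime_of_mem_primeFactors hp
  obtain ⟨t, ht, ht'⟩ := FA.TwoTorsionBound.fewDivisors_prime_pow K (k := 1) hpp
  refine le_trans (card_le_card_of_injOn (fun v => v.asIdeal) (fun v hv => ht' _ ?_)
    fun v _ w _ e => HeightOneSpectrum.ext e) (ht.trans ?_)
  · rw [pow_one]
    exact Ideal.dvd_span_singleton.mpr (mem_filter.mp hv).2
  · calc (1 + 1) ^ finrank ℚ K ≤ 2 ^ 2 := Nat.pow_le_pow_right (by norm_num) hK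
      _ = 4 := by norm_num

/-- **The descent value is admissible.** -/
theorem admissible_descent {k X Y D : ℤ} (hX : X ≠ 0) (hco : IsCoprime X D)
    (heq : Y ^ 2 = X ^ 3 + k * D ^ 6) {σ : 𝓞 K} (hσ : σ ^ 2 = (k : 𝓞 K))
    {T : Finset (HeightOneSpectrum (𝓞 K))} (hT : ∀ v ∉ T, ((6 * k : ℤ) : 𝓞 K) ∉ v.asIdeal) :
    Admissible T ((Y : 𝓞 K) + σ * (D : 𝓞 K) ^ 3) := by
  set Z := (Y : 𝓞 K) + σ * (D : 𝓞 K) ^ 3
  set Z' := (Y : 𝓞 K) - σ * (D : 𝓞 K) ^ 3
  have e : Z * Z' = (X : 𝓞 K) ^ 3 := by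
    have := congrArg (Int.cast : ℤ → 𝓞 K) heq
    push_cast at this
    simp only [Z, Z']
    linear_combination this - (D : 𝓞 K) ^ 6 * hσ
  have hX' : (X : 𝓞 K) ≠ 0 := Int.cast_ne_zero.mpr hX
  have hne : Z * Z' ≠ 0 := e ▸ pow_ne_zero 3 hX'
  refine ⟨left_ne_zero_of_mul hne, fun v hv => ?_⟩
  by_cases hz : expo v Z = 0
  · rw [hz]; exact dvd_zero 3
  have hsum := congrArg (expo v) e
  rw [expo_mul v (left_ne_zero_of_mul hne) (right_ne_zero_of_mul hne), pow_succ, pow_succ, pow_one,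
    expo_mul v (mul_ne_zero hX' hX') hX', expo_mul v hX' hX'] at hsum
  have hZ' : expo v Z' = 0 := by
    by_contra h'
    have m1 := (expo_ne_zero_iff v (left_ne_zero_of_mul hne)).mp hz
    have m2 := (expo_ne_zero_iff v (right_ne_zero_of_mul hne)).mp h'
    have mX : (X : 𝓞 K) ∈ v.asIdeal :=
      v.isPrime.mem_of_pow_mem 3 (e ▸ v.asIdeal.mul_mem_right Z' m1)
    have h6 := hT v hv
    push_cast at h6
    have mD : (D : 𝓞 K) ∉ v.asIdeal := fun mD => by
      obtain ⟨a, b, hab⟩ := hco.map (Int.castRingHom (𝓞 K))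
      exact v.isPrime.ne_top ((Ideal.eq_top_iff_one _).mpr (hab ▸
        v.asIdeal.add_mem (v.asIdeal.mul_mem_left a mX) (v.asIdeal.mul_mem_left b mD)))
    have m3 : 2 * σ * (D : 𝓞 K) ^ 3 ∈ v.asIdeal := by
      have := v.asIdeal.sub_mem m1 m2
      rwa [show Z - Z' = 2 * σ * (D : 𝓞 K) ^ 3 by ring] at this
    rcases v.isPrime.mem_or_mem m3 with h | h
    · rcases v.isPrime.mem_or_mem h with h | h
      · exact h6 (by
          have := v.asIdeal.mul_mem_left (3 * (k : 𝓞 K)) h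
          rwa [show 3 * (k : 𝓞 K) * 2 = 6 * k by ring] at this)
      · exact h6 (by
          have := v.asIdeal.mul_mem_left 6 (v.asIdeal.mul_mem_left σ h)
          rwa [← pow_two, hσ] at this)
    · exact mD (v.isPrime.mem_of_pow_mem 3 h)
  rw [hZ', add_zero] at hsum
  omega

/-- A square root of `k` gives a map out of `ℚ[s]`. -/
def toField {k : ℚ} (S : K) (hS : S ^ 2 = (k : K)) : SqAlg k →ₐ[ℚ] K :=
  QuadraticAlgebra.lift ⟨S, by
    rw [zero_smul, add_zero, ← Algebra.algebraMap_eq_smul_one, eq_ratCast, ← hS, sq]⟩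

theorem toField_apply {k : ℚ} (S : K) (hS : S ^ 2 = (k : K)) (z : SqAlg k) :
    toField S hS z = (z.re : K) + (z.im : K) * S := by
  show z.re • (1 : K) + z.im • S = _
  rw [Rat.smul_def, Rat.smul_def, mul_one]

/-- Cubes in the field with cubic norm come from cubes. -/
def CubeLift {k : ℚ} (g : SqAlg k →ₐ[ℚ] K) : Prop :=
  ∀ P : SqAlg k, (∃ u, u ≠ 0 ∧ g P = u ^ 3) → (∃ n, sqNorm P = n ^ 3) → ∃ w, P = w ^ 3

theorem toField_injective {k : ℚ} (hk : ¬ IsSquare k) (S : K) (hS : S ^ 2 = (k : K)) :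
    Function.Injective (toField S hS) := by
  rw [injective_iff_map_eq_zero]
  intro z hz
  rw [toField_apply] at hz
  by_cases him : z.im = 0
  · rw [him] at hz
    simp at hz
    exact QuadraticAlgebra.ext (by simpa using hz) (by simpa using him)
  · refine absurd ⟨-z.re / z.im, ?_⟩ hk
    have hS' : S = ((-z.re / z.im : ℚ) : K) := by
      push_cast
      rw [eq_div_iff (Rat.cast_ne_zero.mpr him)]
      linear_combination hz
    rw [hS', ← Rat.cast_pow, Rat.cast_inj] at hS
    exact hS.symm.trans (sq _)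

theorem toField_bijective (hK : finrank ℚ K = 2) {k : ℚ} (hk : ¬ IsSquare k) (S : K)
    (hS : S ^ 2 = (k : K)) : Function.Bijective (toField S hS) :=
  ⟨toField_injective hk S hS, (LinearMap.injective_iff_surjective_of_finrank_eq_finrank
    (f := (toField S hS).toLinearMap) (by rw [QuadraticAlgebra.finrank_eq_two, hK])).mp
      (toField_injective hk S hS)⟩

theorem cubeLift_quadratic (hK : finrank ℚ K = 2) {k : ℚ} (hk : ¬ IsSquare k) (S : K)
    (hS : S ^ 2 = (k : K)) : CubeLift (toField S hS) := by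
  rintro P ⟨u, -, hu⟩ -
  obtain ⟨w, rfl⟩ := (toField_bijective hK hk S hS).2 u
  exact ⟨w, (toField_bijective hK hk S hS).1 (by rw [hu, map_pow])⟩

theorem cubeLift_rat {k c : ℚ} (hc : c ≠ 0) (hS : c ^ 2 = k) :
    CubeLift (toField (K := ℚ) c (by simpa using hS)) := by
  subst hS
  rintro P ⟨u, hu0, hu⟩ ⟨n, hn⟩
  rw [toField_apply] at hu
  simp only [Rat.cast_eq_id, id] at hu
  obtain ⟨v, hv⟩ : ∃ v, P.re - P.im * c = v ^ 3 := ⟨n / u, by
    rw [div_pow, eq_div_iff (pow_ne_zero 3 hu0)]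
    simp only [sqNorm] at hn
    linear_combination hn - (P.re - P.im * c) * hu⟩
  refine ⟨⟨(u + v) / 2, (u - v) / (2 * c)⟩, ?_⟩
  ext
  · simp [pow_succ]
    field_simp
    linear_combination 4 * hu + 4 * hv
  · simp [pow_succ]
    field_simp
    linear_combination 4 * hu - 4 * hv

/-- The rational points with `x ≠ 0`. -/
abbrev NonzeroPoint (k : ℚ) : Type := {p : ℚ × ℚ // p.2 ^ 2 = p.1 ^ 3 + k ∧ p.1 ≠ 0}

/-- `y + s` and `y' + s` differ by the cube of a unit. -/
def CubeRel (k : ℚ) (p q : NonzeroPoint k) : Prop :=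
  ∃ t : (SqAlg k)ˣ, ratS k p.1.2 + sRoot k = (ratS k q.1.2 + sRoot k) * (t : SqAlg k) ^ 3

theorem cubeRel_equivalence (k : ℚ) : Equivalence (CubeRel k) := by
  refine ⟨fun p => ⟨1, by simp⟩, fun {p q} ⟨t, h⟩ => ⟨t⁻¹, ?_⟩,
    fun {p q r} ⟨t, h⟩ ⟨u, h'⟩ => ⟨u * t, ?_⟩⟩
  · rw [h, mul_assoc, ← mul_pow, Units.mul_inv, one_pow, mul_one]
  · rw [h, h', Units.val_mul, mul_pow, mul_assoc]

/-- The relation as a setoid. -/
def cubeSetoid (k : ℚ) : Setoid (NonzeroPoint k) := ⟨CubeRel k, cubeRel_equivalence k⟩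

/-- The classes of `y + s` up to cubes. -/
def DescentClasses (k : ℚ) : Type := Quotient (cubeSetoid k)

theorem equation_product {k : ℚ} {x y : ℚ} (e : y ^ 2 = x ^ 3 + k) :
    (ratS k y + sRoot k) * (ratS k (-y) + sRoot k) = ratS k (-x) ^ 3 := by
  have h := congrArg (ratS k) e
  simp only [map_add, map_pow, map_neg] at h ⊢
  linear_combination sRoot_sq k - h

/-- One class: one coset. -/
theorem coset_eq_of_rel {k : ℚ} (hk : k ≠ 0) {x y x' y' : ℚ}
    (h : (mord k).toAffine.Nonsingular x y) (h' : (mord k).toAffine.Nonsingular x' y')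
    (hx : x ≠ 0) (hx' : x' ≠ 0) {t : (SqAlg k)ˣ}
    (e : ratS k y + sRoot k = (ratS k y' + sRoot k) * (t : SqAlg k) ^ 3) :
    (QuotientAddGroup.mk (Affine.Point.some x y h) :
        (mord k).toAffine.Point ⧸ (dualHom hk).range) =
      QuotientAddGroup.mk (Affine.Point.some x' y' h') := by
  by_cases hxx : x = x'
  · subst hxx
    rcases Affine.Y_eq_of_X_eq h.1 h'.1 rfl with hY | hY
    · subst hY; rfl
    have hy' : y' = -y := by simp [hY, Affine.negY]
    subst hy'
    have e2 : (ratS k y + sRoot k) ^ 2 = (ratS k (-x) * (t : SqAlg k)) ^ 3 := by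
      rw [mul_pow, ← equation_product (mord_equation.mp h.1)]
      linear_combination (ratS k y + sRoot k) * e
    have hc : ratS k (-x) * (t : SqAlg k) * (ratS k (-x)⁻¹ * (t⁻¹ : (SqAlg k)ˣ)) = 1 := by
      rw [mul_mul_mul_comm, ← map_mul, mul_inv_cancel₀ (neg_ne_zero.mpr hx), map_one, one_mul,
        Units.mul_inv]
    have hm := mem_range_of_cube hk h
      (z := (ratS k y + sRoot k) * (ratS k (-x)⁻¹ * (t⁻¹ : (SqAlg k)ˣ))) (by
        calc ratS k y + sRoot k = (ratS k y + sRoot k) *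
              (ratS k (-x) * (t : SqAlg k) * (ratS k (-x)⁻¹ * (t⁻¹ : (SqAlg k)ˣ))) ^ 3 := by
              rw [hc, one_pow, mul_one]
          _ = _ := by rw [mul_pow _ (ratS k (-x)⁻¹ * _), ← e2]; ring)
    refine ((QuotientAddGroup.eq_zero_iff _).mpr hm).trans
      ((QuotientAddGroup.eq_zero_iff _).mpr ?_).symm
    have hn := neg_mem hm
    rw [Affine.Point.neg_some] at hn
    simpa [Affine.negY] using hn
  · have hm := add_mem_range_of_cube hk h
      ((Affine.nonsingular_neg (W' := (mord k).toAffine) _ _).mpr h') hx hx' hxx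
      (w := ratS k (-x') * (t : SqAlg k)) (by
        simp only [Affine.negY, zero_mul, sub_zero]
        rw [e, mul_pow, ← equation_product (mord_equation.mp h'.1)]
        ring)
    rw [← Affine.Point.neg_some h'] at hm
    refine QuotientAddGroup.eq.mpr ?_
    rw [show -Affine.Point.some x y h + Affine.Point.some x' y' h' =
      -(Affine.Point.some x y h + -Affine.Point.some x' y' h') by abel]
    exact neg_mem hm

/-- **The index against the classes.** -/
theorem dualIndex_le_classes {k : ℚ} (hk : k ≠ 0) [Finite (DescentClasses k)] :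
    dualIndex k ≤ 3 + Nat.card (DescentClasses k) := by
  rw [dualIndex_eq hk, AddSubgroup.index]
  set H := (dualHom hk).range
  obtain ⟨hZ, hZ3⟩ := smallPoints_bound k
  set mk : (mord k).toAffine.Point → (mord k).toAffine.Point ⧸ H := QuotientAddGroup.mk
  set Z : Set ((mord k).toAffine.Point ⧸ H) := mk '' smallPoints k
  have hout : ∀ q, q ∉ Z → ∃ (x y : ℚ) (h : (mord k).toAffine.Nonsingular x y),
      x ≠ 0 ∧ mk (.some x y h) = q := by
    intro q hq
    obtain ⟨P, rfl⟩ : ∃ P, mk P = q := QuotientAddGroup.mk_surjective q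
    rcases P with _ | ⟨x, y, h⟩
    · exact absurd ⟨0, Or.inl rfl, rfl⟩ hq
    refine ⟨x, y, h, ?_, rfl⟩
    rintro rfl
    exact hq ⟨_, Or.inr ⟨y, h, rfl⟩, rfl⟩
  choose X Y hP hx hmk using hout
  let d : ↥Zᶜ → DescentClasses k := fun q => Quotient.mk (cubeSetoid k)
    ⟨(X q.1 q.2, Y q.1 q.2), mord_equation.mp (hP q.1 q.2).1, hx q.1 q.2⟩
  have hd : Function.Injective d := by
    intro a b e
    obtain ⟨t, ht⟩ := Quotient.exact e
    refine Subtype.ext ?_
    rw [← hmk a.1 a.2, ← hmk b.1 b.2]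
    exact coset_eq_of_rel hk (hP a.1 a.2) (hP b.1 b.2) (hx a.1 a.2) (hx b.1 b.2) ht
  have hfc : Zᶜ.Finite := Set.finite_coe_iff.mp (Finite.of_injective d hd)
  refine le_trans (b := (Set.univ : Set ((mord k).toAffine.Point ⧸ H)).ncard) ?_ ?_
  · rw [Set.ncard_univ]
  rw [← Set.union_compl_self Z]
  refine (Set.ncard_union_le _ _).trans (add_le_add ((Set.ncard_image_le hZ).trans hZ3) ?_)
  rw [← Nat.card_coe_set_eq]
  exact Nat.card_le_card_of_injective d hd

theorem rel_of_field {k : ℚ} (S : K) (hS : S ^ 2 = (k : K)) (hlift : CubeLift (toField S hS))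
    (p q : NonzeroPoint k) {t : K} (ht : t ≠ 0)
    (e : (p.1.2 : K) + S = ((q.1.2 : K) + S) * t ^ 3) : CubeRel k p q := by
  obtain ⟨⟨x, y⟩, hxy, hx⟩ := p
  obtain ⟨⟨x', y'⟩, hxy', hx'⟩ := q
  simp only at e hxy hxy' hx hx' ⊢
  have q' := congrArg (fun r : ℚ => (r : K)) hxy'
  push_cast at q'
  obtain ⟨w, hw⟩ := hlift ((ratS k y + sRoot k) * (ratS k (-y') + sRoot k))
    ⟨-((x' : K) * t), neg_ne_zero.mpr (mul_ne_zero (Rat.cast_ne_zero.mpr hx') ht), by
      rw [map_mul, toField_apply, toField_apply]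
      simp
      linear_combination (-(y' : K) + S) * e + t ^ 3 * hS - t ^ 3 * q'⟩
    ⟨x * x', by
      rw [sqNorm_mul, sqNorm_rat_add, sqNorm_rat_add,
        show y ^ 2 - k = x ^ 3 by linear_combination hxy,
        show (-y') ^ 2 - k = x' ^ 3 by linear_combination hxy']
      ring⟩
  have hwu : IsUnit w := by
    refine isUnit_of_mul_isUnit_left (y := ⟨w.re, -w.im⟩) ?_
    rw [mul_conj]
    refine (isUnit_iff_ne_zero.mpr ?_).map _
    intro h0
    have := congrArg sqNorm hw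
    rw [sqNorm_pow, h0, sqNorm_mul, sqNorm_rat_add, sqNorm_rat_add,
      show y ^ 2 - k = x ^ 3 by linear_combination hxy,
      show (-y') ^ 2 - k = x' ^ 3 by linear_combination hxy'] at this
    simp [hx, hx'] at this
  have hu : IsUnit (ratS k (-x')) := (isUnit_iff_ne_zero.mpr (neg_ne_zero.mpr hx')).map _
  refine ⟨hwu.unit * hu.unit⁻¹, ?_⟩
  show ratS k y + sRoot k = (ratS k y' + sRoot k) * ((hwu.unit * hu.unit⁻¹ : (SqAlg k)ˣ) :
    SqAlg k) ^ 3
  rw [Units.val_mul, IsUnit.unit_spec, mul_pow, ← hw]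
  calc ratS k y + sRoot k = (ratS k y + sRoot k) *
        (ratS k (-x') * ((hu.unit⁻¹ : (SqAlg k)ˣ) : SqAlg k)) ^ 3 := by
        rw [IsUnit.mul_val_inv, one_pow, mul_one]
    _ = _ := by rw [mul_pow, ← equation_product hxy']; ring

/-- **The classes against the three-torsion of a field with a square root of `k`.** -/
theorem classes_le_of_lift (hK : finrank ℚ K ≤ 2) {k : ℤ} (hk : k ≠ 0) (S : K)
    (hS : S ^ 2 = ((k : ℚ) : K)) (hlift : CubeLift (toField S hS)) :
    Finite (DescentClasses (k : ℚ)) ∧ Nat.card (DescentClasses (k : ℚ)) ≤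
      9 * 81 ^ (supportPrimes k).card * Nat.card {c : ClassGroup (𝓞 K) // c ^ 3 = 1} := by
  obtain ⟨T, hTc, hT⟩ := exists_support (K := K) hK hk
  have hSk : S ^ 2 = (k : K) := by rw [hS]; simp
  have hSint : IsIntegral ℤ S :=
    IsIntegral.of_pow two_pos (hSk ▸ (isIntegral_algebraMap (R := ℤ) (x := k)))
  set σ : 𝓞 K := ⟨S, hSint⟩
  have hσ : σ ^ 2 = (k : 𝓞 K) := RingOfIntegers.ext (by simpa [σ] using hSk)
  let rep : DescentClasses (k : ℚ) → NonzeroPoint (k : ℚ) := Quotient.out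
  choose X Y D hD hco hX hY heq using fun c => exists_coprime_coords (rep c).2.1
  let z : DescentClasses (k : ℚ) → 𝓞 K := fun c => (Y c : 𝓞 K) + σ * (D c : 𝓞 K) ^ 3
  have hX0 : ∀ c, X c ≠ 0 := by
    intro c h0
    have := hX c
    rw [h0, Int.cast_zero] at this
    exact mul_ne_zero (rep c).2.2 (pow_ne_zero 2 (Int.cast_ne_zero.mpr (hD c))) this
  obtain ⟨hfin, hcard⟩ := card_classes_le_three T z
    (fun c => admissible_descent (hX0 c) (hco c) (heq c) hσ hT) (by
      rintro i j ⟨a, b, ha, hb, hab⟩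
      have e : (z i : K) * (a : K) ^ 3 = (z j : K) * (b : K) ^ 3 := by
        exact_mod_cast congrArg (fun r : 𝓞 K => (r : K)) hab
      have hz : ∀ c, (z c : K) = (((rep c).1.2 : K) + S) * (D c : K) ^ 3 := by
        intro c
        have := congrArg (fun r : ℚ => (r : K)) (hY c)
        push_cast at this
        simp only [z, σ, map_add, map_mul, map_pow, map_intCast, RingOfIntegers.map_mk]
        linear_combination -this
      rw [hz i, hz j] at e
      have ha' : (a : K) ≠ 0 := by exact_mod_cast ha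
      have hb' : (b : K) ≠ 0 := by exact_mod_cast hb
      have hDi : (D i : K) ≠ 0 := Int.cast_ne_zero.mpr (hD i)
      have hDj : (D j : K) ≠ 0 := Int.cast_ne_zero.mpr (hD j)
      have hrel : CubeRel (k : ℚ) (rep i) (rep j) := rel_of_field S hS hlift _ _
        (t := (D j : K) * b / ((D i : K) * a))
        (div_ne_zero (mul_ne_zero hDj hb') (mul_ne_zero hDi ha'))
        (by field_simp; linear_combination e)
      exact (Quotient.out_eq i).symm.trans ((Quotient.sound hrel).trans (Quotient.out_eq j)))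
  refine ⟨hfin, hcard.trans ?_⟩
  have hr : Units.rank K + 1 ≤ 2 := by
    have h1 := InfinitePlace.card_add_two_mul_card_eq_rank K
    have h2 := InfinitePlace.card_eq_nrRealPlaces_add_nrComplexPlaces (K := K)
    rw [Units.rank]
    omega
  calc 3 ^ T.card * Nat.card {c : ClassGroup (𝓞 K) // c ^ 3 = 1} * 3 ^ (Units.rank K + 1)
      ≤ 3 ^ (4 * (supportPrimes k).card) * Nat.card {c : ClassGroup (𝓞 K) // c ^ 3 = 1} *
        3 ^ 2 :=
        Nat.mul_le_mul (Nat.mul_le_mul_right _ (Nat.pow_le_pow_right (by norm_num) hTc))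
          (Nat.pow_le_pow_right (by norm_num) hr)
    _ = _ := by rw [pow_mul]; ring

/-- **The quadratic case.** -/
theorem classes_le_three_torsion (hK : finrank ℚ K = 2) {k : ℤ} (hk : k ≠ 0)
    (hsq : ¬ IsSquare k) (S : K) (hS : S ^ 2 = (k : K)) :
    Finite (DescentClasses (k : ℚ)) ∧ Nat.card (DescentClasses (k : ℚ)) ≤
      9 * 81 ^ (supportPrimes k).card * Nat.card {c : ClassGroup (𝓞 K) // c ^ 3 = 1} := by
  have hsq' : ¬ IsSquare (k : ℚ) := fun h => hsq (Rat.isSquare_intCast_iff.mp h)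
  exact classes_le_of_lift hK.le hk S (by simpa using hS)
    (cubeLift_quadratic hK hsq' S (by simpa using hS))

/-- **The quadratic case against the class number.** -/
theorem classes_le_classNumber (hK : finrank ℚ K = 2) {k : ℤ} (hk : k ≠ 0)
    (hsq : ¬ IsSquare k) (S : K) (hS : S ^ 2 = (k : K)) :
    Finite (DescentClasses (k : ℚ)) ∧ Nat.card (DescentClasses (k : ℚ)) ≤
      9 * 81 ^ (supportPrimes k).card * classNumber K :=
  ⟨(classes_le_three_torsion hK hk hsq S hS).1,
    (classes_le_three_torsion hK hk hsq S hS).2.trans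
      (Nat.mul_le_mul_left _ card_three_torsion_le)⟩

/-- **The square case.** -/
theorem classes_le_of_isSquare {k : ℤ} (hk : k ≠ 0) (hsq : IsSquare k) :
    Finite (DescentClasses (k : ℚ)) ∧ Nat.card (DescentClasses (k : ℚ)) ≤
      9 * 81 ^ (supportPrimes k).card := by
  obtain ⟨c, rfl⟩ := hsq
  have hc : (c : ℚ) ≠ 0 := Int.cast_ne_zero.mpr (left_ne_zero_of_mul hk)
  obtain ⟨hfin, h⟩ := classes_le_of_lift (K := ℚ) (by simp) hk (c : ℚ) (by push_cast; ring)
    (cubeLift_rat hc (by push_cast; ring))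
  refine ⟨hfin, h.trans ?_⟩
  have := card_three_torsion_le (K := ℚ)
  rw [Rat.classNumber_eq] at this
  exact (Nat.mul_le_mul_left _ this).trans_eq (mul_one _)

end FA.BrumerSilverman
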