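import Fermat.Agent.BrumerSilverman.Descent
import Fermat.Agent.Root.SummaryEffectiveBrauerSiegel
import Fermat.Agent.Root.SummaryRegulatorBound
import Fermat.Agent.Thirteen.FieldDiscr
import Mathlib.Analysis.SpecialFunctions.Pow.Real
import Mathlib.FieldTheory.KummerPolynomial

/-!
# The index is `O_ε` of the product of the primes of `6 k` to the power `1/2 + ε`

The field of a square root of `k` has discriminant at most four times that product, so by Landau's
bound for `h R` and the uniform lower bound for the regulator its class number is small.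
-/

set_option autoImplicit false
set_option linter.style.haveILetI false

noncomputable section

open NumberField Module Finset Matrix
open FA.MordellAverage
open scoped Classical IntermediateField

namespace FA.BrumerSilverman

theorem supportProd_pos (k : ℤ) : 0 < supportProd k :=
  prod_pos fun _ hp => (Nat.prime_of_mem_primeFactors hp).pos

/-- A field of degree two with a square root of `k`. -/
theorem exists_field {k : ℤ} (hsq : ¬ IsSquare k) :
    ∃ (K : IntermediateField ℚ ℂ) (_ : NumberField K) (S : K),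
      finrank ℚ K = 2 ∧ S ^ 2 = (k : K) := by
  obtain ⟨s, hs⟩ := IsAlgClosed.exists_pow_nat_eq ((k : ℂ)) two_pos
  have hirr : Irreducible (Polynomial.X ^ 2 - Polynomial.C (k : ℚ)) :=
    X_pow_sub_C_irreducible_of_prime Nat.prime_two fun b hb =>
      hsq (Rat.isSquare_intCast_iff.mp ⟨b, by rw [← hb, sq]⟩)
  have hint : IsIntegral ℚ s :=
    IsIntegral.of_pow two_pos (hs ▸ (show IsIntegral ℚ ((k : ℂ)) by
      simpa using (isIntegral_algebraMap (R := ℚ) (x := (k : ℚ)) (A := ℂ))))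
  have hmin : minpoly ℚ s = Polynomial.X ^ 2 - Polynomial.C (k : ℚ) :=
    (minpoly.eq_of_irreducible_of_monic hirr (by simp [hs])
      (Polynomial.monic_X_pow_sub_C _ two_ne_zero)).symm
  haveI hfd : FiniteDimensional ℚ ℚ⟮s⟯ := IntermediateField.adjoin.finiteDimensional hint
  haveI : NumberField ℚ⟮s⟯ := @NumberField.mk _ _ inferInstance hfd
  refine ⟨ℚ⟮s⟯, inferInstance, IntermediateField.AdjoinSimple.gen ℚ s, ?_, ?_⟩
  · rw [IntermediateField.adjoin.finrank hint, hmin, Polynomial.natDegree_X_pow_sub_C]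
  · exact Subtype.ext (by simpa using hs)

variable {K : Type} [Field K] [NumberField K]

theorem trace_root (hK : finrank ℚ K = 2) {q : ℚ} (hq : ¬ IsSquare q) (S : K)
    (hS : S ^ 2 = (q : K)) : Algebra.trace ℚ K S = 0 := by
  let e : SqAlg q ≃ₐ[ℚ] K := AlgEquiv.ofBijective _ (toField_bijective hK hq S hS)
  have he : e (sRoot q) = S := by
    show toField S hS (sRoot q) = S
    simp [toField_apply]
  rw [← he, Algebra.trace_eq_of_algEquiv e,
    Algebra.trace_eq_matrix_trace (QuadraticAlgebra.basis q 0), Matrix.trace, Fin.sum_univ_two]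
  simp [Algebra.leftMulMatrix_eq_repr_mul, QuadraticAlgebra.basis,
    QuadraticAlgebra.linearEquivTuple, QuadraticAlgebra.equivProd]

/-- **The discriminant is at most four times the product of the primes.** -/
theorem natAbs_discr_le (hK : finrank ℚ K = 2) {k : ℤ} (hk : k ≠ 0) (hsq : ¬ IsSquare k) (S : K)
    (hS : S ^ 2 = (k : K)) : (discr K).natAbs ≤ 4 * supportProd k := by
  obtain ⟨a, b, hab, ha⟩ := Nat.sq_mul_squarefree k.natAbs
  have hb : b ≠ 0 := by
    rintro rfl
    simp at hab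
    exact hk (Int.natAbs_eq_zero.mp hab.symm)
  obtain ⟨m, hm, hma⟩ : ∃ m : ℤ, k = m * (b : ℤ) ^ 2 ∧ m.natAbs = a := by
    rcases Int.natAbs_eq k with e | e
    · exact ⟨a, by rw [e, ← hab]; push_cast; ring, by simp⟩
    · exact ⟨-a, by rw [e, ← hab]; push_cast; ring, by simp⟩
  have hbK : (b : K) ≠ 0 := Nat.cast_ne_zero.mpr hb
  set w : K := S / (b : K)
  have hw : w ^ 2 = (m : K) := by
    simp only [w]
    rw [div_pow, hS, div_eq_iff (pow_ne_zero 2 hbK), hm]
    push_cast
    ring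
  have hmsq : ¬ IsSquare (m : ℚ) := fun h => hsq (by
    obtain ⟨r, hr⟩ := Rat.isSquare_intCast_iff.mp h
    exact ⟨r * b, by rw [hm, hr]; ring⟩)
  have hw' : w ^ 2 = ((m : ℚ) : K) := by simpa using hw
  have h1 : Algebra.trace ℚ K 1 = 2 := by
    rw [← map_one (algebraMap ℚ K), Algebra.trace_algebraMap, hK]; norm_num
  have h2 : Algebra.trace ℚ K (w * w) = 2 * (m : ℚ) := by
    rw [← sq, hw', ← eq_ratCast (algebraMap ℚ K), Algebra.trace_algebraMap, hK, nsmul_eq_mul]
    norm_num
  have hdet : Algebra.discr ℚ ![1, w] = 4 * (m : ℚ) := by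
    rw [Algebra.discr_def, det_fin_two]
    simp [Algebra.traceMatrix_apply, Algebra.traceForm_apply, h1, h2,
      trace_root hK hmsq w hw']
    ring
  have hm0 : m ≠ 0 := by
    rintro rfl
    simp at hm
    exact hk hm
  have hint : ∀ i, IsIntegral ℤ (![1, w] i) := by
    intro i
    fin_cases i
    · exact isIntegral_one
    · exact IsIntegral.of_pow two_pos (hw ▸ (isIntegral_algebraMap (R := ℤ) (x := m)))
  have h := FA.Thirteen.abs_discr_le_of_isIntegral (ι := Fin 2) (by rw [Fintype.card_fin, hK])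
    ![1, w] hint (by rw [hdet]; exact mul_ne_zero (by norm_num) (Int.cast_ne_zero.mpr hm0))
  rw [hdet, abs_mul, abs_of_pos (by norm_num : (0 : ℚ) < 4)] at h
  have h' : ((discr K).natAbs : ℚ) ≤ 4 * (m.natAbs : ℚ) := by
    rwa [Nat.cast_natAbs, Nat.cast_natAbs, Int.cast_abs, Int.cast_abs]
  refine le_trans (b := 4 * m.natAbs) (by exact_mod_cast h') (Nat.mul_le_mul_left _ ?_)
  rw [hma]
  refine Nat.le_of_dvd (supportProd_pos k) ?_
  rw [← Nat.prod_primeFactors_of_squarefree ha]
  refine prod_dvd_prod_of_subset _ _ _ (Nat.primeFactors_mono ?_ ?_)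
  · rw [Int.natAbs_mul, ← hab]
    exact (dvd_mul_left a _).mul_left _
  · exact Int.natAbs_ne_zero.mpr (mul_ne_zero (by norm_num) hk)

/-- A power of a constant to the number of primes is a small power of their product. -/
theorem exists_pow_card_le (c : ℕ) {ε : ℝ} (hε : 0 < ε) : ∃ C : ℝ, 1 ≤ C ∧
    ∀ P : Finset ℕ, (∀ p ∈ P, p.Prime) →
      (c : ℝ) ^ P.card ≤ C * ((∏ p ∈ P, p : ℕ) : ℝ) ^ ε := by
  set c' : ℝ := max (c : ℝ) 1
  have hc1 : 1 ≤ c' := le_max_right _ _
  set B : ℕ := ⌈c' ^ (1 / ε)⌉₊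
  refine ⟨c' ^ (B + 1), one_le_pow₀ hc1, fun P hP => ?_⟩
  set small := P.filter fun p => p ≤ B
  set large := P.filter fun p => ¬ p ≤ B
  have hcard : P.card = small.card + large.card := (card_filter_add_card_filter_not _).symm
  have hsmall : small.card ≤ B + 1 := by
    refine (card_le_card (t := range (B + 1)) fun p hp => ?_).trans_eq (card_range _)
    exact mem_range.mpr (Nat.lt_succ_of_le (mem_filter.mp hp).2)
  calc (c : ℝ) ^ P.card ≤ c' ^ P.card := pow_le_pow_left₀ (Nat.cast_nonneg _) (le_max_left _ _) _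
    _ = c' ^ small.card * c' ^ large.card := by rw [hcard, pow_add]
    _ ≤ c' ^ (B + 1) * ∏ p ∈ large, (p : ℝ) ^ ε := by
        refine mul_le_mul (pow_le_pow_right₀ hc1 hsmall) ?_ (by positivity) (by positivity)
        rw [← prod_const]
        refine prod_le_prod (fun _ _ => by positivity) fun p hp => ?_
        have hp' : c' ^ (1 / ε) ≤ p := (Nat.le_ceil _).trans
          (by exact_mod_cast (not_le.mp (mem_filter.mp hp).2).le)
        calc c' = (c' ^ (1 / ε)) ^ ε := by
              rw [← Real.rpow_mul (by positivity), one_div_mul_cancel hε.ne', Real.rpow_one]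
          _ ≤ _ := Real.rpow_le_rpow (by positivity) hp' hε.le
    _ ≤ c' ^ (B + 1) * ((∏ p ∈ P, p : ℕ) : ℝ) ^ ε := by
        refine mul_le_mul_of_nonneg_left ?_ (by positivity)
        rw [Real.finsetProd_rpow _ _ (fun p _ => Nat.cast_nonneg p)]
        refine Real.rpow_le_rpow (prod_nonneg fun p _ => Nat.cast_nonneg p) ?_ hε.le
        rw [Nat.cast_prod]
        exact prod_le_prod_of_subset_of_one_le (filter_subset _ _)
          (fun p _ => Nat.cast_nonneg p)
          fun p hp _ => by exact_mod_cast (hP p hp).one_le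

theorem one_add_log_le {x δ : ℝ} (hx : 1 ≤ x) (hδ : 0 < δ) :
    1 + Real.log x ≤ (1 + 1 / δ) * x ^ δ := by
  have h1 := Real.log_le_rpow_div (show (0 : ℝ) ≤ x by linarith) hδ
  have h2 : 1 ≤ x ^ δ := Real.one_le_rpow hx hδ.le
  calc 1 + Real.log x ≤ x ^ δ + x ^ δ / δ := add_le_add h2 h1
    _ = _ := by ring

/-- **The class number of a field with a square root of `k`.** -/
theorem exists_classNumber_bound {ε : ℝ} (hε : 0 < ε) : ∃ A : ℝ, 0 ≤ A ∧
    ∀ (K : Type) [Field K] [NumberField K] (k : ℤ) (S : K), finrank ℚ K = 2 → k ≠ 0 →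
      ¬ IsSquare k → S ^ 2 = (k : K) →
      (classNumber K : ℝ) ≤ A * (supportProd k : ℝ) ^ (1 / 2 + ε) := by
  obtain ⟨c, hc, hreg⟩ := FA.RegulatorBound.Summary.regulator_uniform_lower 2
  set δ := ε / 2
  have hδ : 0 < δ := half_pos hε
  set a := 128 * (1 + 1 / δ) ^ 2 / c
  refine ⟨a * (4 : ℝ) ^ (1 / 2 + ε), by positivity, fun K _ _ k S hK hk hsq hS => ?_⟩
  set d : ℝ := ((discr K).natAbs : ℝ)
  have hd1 : 1 ≤ d := by
    simp only [d]; exact_mod_cast Int.natAbs_pos.mpr (discr_ne_zero K)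
  have hd4 : d ≤ 4 * (supportProd k : ℝ) := by
    simp only [d]; exact_mod_cast natAbs_discr_le hK hk hsq S hS
  have h := FA.Summary.classNumber_mul_regulator_le_effective K
  rw [hK, show |((discr K : ℤ) : ℝ)| = d by
    simp only [d]; rw [Nat.cast_natAbs, Int.cast_abs]] at h
  have hlog := one_add_log_le hd1 hδ
  have hl0 : 0 ≤ 1 + Real.log d := by linarith [Real.log_nonneg hd1]
  have h1 : (classNumber K : ℝ) * c ≤ 128 * Real.sqrt d * ((1 + 1 / δ) * d ^ δ) ^ 2 := by
    calc (classNumber K : ℝ) * c ≤ (classNumber K : ℝ) * Units.regulator K :=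
          mul_le_mul_of_nonneg_left (hreg K hK) (Nat.cast_nonneg _)
      _ ≤ 8 * ((2 : ℕ) : ℝ) ^ 2 * Real.sqrt d * (2 * (1 + Real.log d)) ^ 2 := h
      _ = 128 * Real.sqrt d * (1 + Real.log d) ^ 2 := by push_cast; ring
      _ ≤ _ := by gcongr
  have h2 : (classNumber K : ℝ) ≤ a * d ^ (1 / 2 + ε) := by
    rw [show a * d ^ (1 / 2 + ε) = 128 * Real.sqrt d * ((1 + 1 / δ) * d ^ δ) ^ 2 / c from ?_,
      le_div_iff₀ hc]
    · exact h1
    · rw [show 1 / 2 + ε = 1 / 2 + (δ + δ) by simp only [δ]; ring, Real.rpow_add (by linarith),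
        Real.rpow_add (by linarith), ← Real.sqrt_eq_rpow]
      simp only [a]
      ring
  refine h2.trans ?_
  rw [mul_assoc a, ← Real.mul_rpow (by norm_num) (Nat.cast_nonneg _)]
  exact mul_le_mul_of_nonneg_left (Real.rpow_le_rpow (by linarith) hd4 (by positivity))
    (by positivity)

/-- The three-torsion of the field of `√k` is `O_ε` of the product of the primes of `6 k` to the
power `θ + ε`. -/
def TorsionExponent (θ : ℝ) : Prop :=
  ∀ ε : ℝ, 0 < ε → ∃ A : ℝ, 0 ≤ A ∧
    ∀ (K : Type) [Field K] [NumberField K] (k : ℤ) (S : K), finrank ℚ K = 2 → k ≠ 0 →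
      ¬ IsSquare k → S ^ 2 = (k : K) →
      (Nat.card {c : ClassGroup (𝓞 K) // c ^ 3 = 1} : ℝ) ≤ A * (supportProd k : ℝ) ^ (θ + ε)

/-- By the class number the exponent `1/2` is admissible. -/
theorem torsionExponent_half : TorsionExponent (1 / 2) := fun ε hε => by
  obtain ⟨A, hA, h⟩ := exists_classNumber_bound hε
  exact ⟨A, hA, fun K _ _ k S hK hk hsq hS =>
    (Nat.cast_le.mpr card_three_torsion_le).trans (h K k S hK hk hsq hS)⟩

/-- **The descent classes in every case.** -/
theorem exists_classes_bound_of {θ : ℝ} (hθ : 0 ≤ θ) (hT : TorsionExponent θ) {ε : ℝ}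
    (hε : 0 < ε) : ∃ C : ℝ, 0 ≤ C ∧ ∀ k : ℤ, k ≠ 0 →
    Finite (DescentClasses (k : ℚ)) ∧
      (Nat.card (DescentClasses (k : ℚ)) : ℝ) ≤ C * (supportProd k : ℝ) ^ (θ + ε) := by
  obtain ⟨A, hA, hclass⟩ := hT _ (half_pos hε)
  obtain ⟨B, hB, hpow⟩ := exists_pow_card_le 81 (half_pos hε)
  refine ⟨9 * B * (A + 1), by positivity, fun k hk => ?_⟩
  set R : ℝ := (supportProd k : ℝ)
  have hR : 1 ≤ R := Nat.one_le_cast.mpr (supportProd_pos k)
  have hP := hpow (supportPrimes k) fun p hp => Nat.prime_of_mem_primeFactors hp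
  push_cast at hP
  have key : ∀ h : ℕ,
      Nat.card (DescentClasses (k : ℚ)) ≤ 9 * 81 ^ (supportPrimes k).card * h →
      (h : ℝ) ≤ (A + 1) * R ^ (θ + ε / 2) →
      (Nat.card (DescentClasses (k : ℚ)) : ℝ) ≤ 9 * B * (A + 1) * R ^ (θ + ε) := by
    intro h h1 h2
    have h1' : (Nat.card (DescentClasses (k : ℚ)) : ℝ) ≤
        9 * 81 ^ (supportPrimes k).card * h := by exact_mod_cast h1
    refine h1'.trans ?_
    calc 9 * (81 : ℝ) ^ (supportPrimes k).card * h
        ≤ 9 * (B * R ^ (ε / 2)) * ((A + 1) * R ^ (θ + ε / 2)) := by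
          refine mul_le_mul (mul_le_mul_of_nonneg_left ?_ (by norm_num)) h2 (Nat.cast_nonneg _)
            (by positivity)
          simpa [R, supportProd] using hP
      _ = _ := by
          rw [show R ^ (θ + ε) = R ^ (ε / 2) * R ^ (θ + ε / 2) by
            rw [← Real.rpow_add (by linarith)]; ring_nf]
          ring
  by_cases hsq : IsSquare k
  · obtain ⟨hfin, hle⟩ := classes_le_of_isSquare hk hsq
    refine ⟨hfin, key 1 (by simpa using hle) ?_⟩
    push_cast
    exact one_le_mul_of_one_le_of_one_le (by linarith) (Real.one_le_rpow hR (by positivity))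
  · obtain ⟨K, _, S, hK, hS⟩ := exists_field hsq
    obtain ⟨hfin, hle⟩ := classes_le_three_torsion hK hk hsq S hS
    exact ⟨hfin, key _ hle ((hclass K k S hK hk hsq hS).trans
      (mul_le_mul_of_nonneg_right (by linarith) (by positivity)))⟩

/-- **The index in every case.** -/
theorem exists_index_bound_of {θ : ℝ} (hθ : 0 ≤ θ) (hT : TorsionExponent θ) {ε : ℝ}
    (hε : 0 < ε) : ∃ C : ℝ, 0 ≤ C ∧ ∀ k : ℤ, k ≠ 0 →
    (dualIndex (k : ℚ) : ℝ) ≤ C * (supportProd k : ℝ) ^ (θ + ε) := by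
  obtain ⟨C, hC, h⟩ := exists_classes_bound_of hθ hT hε
  refine ⟨3 + C, by linarith, fun k hk => ?_⟩
  obtain ⟨hfin, hle⟩ := h k hk
  have hR : (1 : ℝ) ≤ (supportProd k : ℝ) := Nat.one_le_cast.mpr (supportProd_pos k)
  have h1 : (dualIndex (k : ℚ) : ℝ) ≤ 3 + Nat.card (DescentClasses (k : ℚ)) := by
    exact_mod_cast dualIndex_le_classes (Int.cast_ne_zero.mpr hk)
  rw [add_mul]
  exact h1.trans (add_le_add
    (le_mul_of_one_le_right (by norm_num) (Real.one_le_rpow hR (by positivity))) hle)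

theorem supportProd_le {k : ℤ} (hk : k ≠ 0) : (supportProd k : ℝ) ≤ 6 * |(k : ℝ)| := by
  have h : supportProd k ≤ (6 * k).natAbs :=
    Nat.le_of_dvd (Int.natAbs_pos.mpr (mul_ne_zero (by norm_num) hk)) (Nat.prod_primeFactors_dvd _)
  calc (supportProd k : ℝ) ≤ ((6 * k).natAbs : ℕ) := by exact_mod_cast h
    _ = _ := by rw [Nat.cast_natAbs, Int.cast_abs]; push_cast; rw [abs_mul]; norm_num

theorem supportPrimes_neg27 {k : ℤ} (hk : k ≠ 0) :
    supportPrimes (-27 * k) = supportPrimes k := by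
  have h27 : -27 * k ≠ 0 := mul_ne_zero (by norm_num) hk
  ext p
  by_cases hp : p.Prime
  · rw [mem_supportPrimes h27 hp, mem_supportPrimes hk hp]
    have hpp : Prime (p : ℤ) := Nat.prime_iff_prime_int.1 hp
    constructor
    · intro h
      rw [show 6 * (-27 * k) = (-3) ^ 3 * (6 * k) by ring] at h
      rcases hpp.dvd_mul.mp h with h | h
      · exact ((hpp.dvd_of_dvd_pow h).trans ⟨-2, by norm_num⟩).mul_right k
      · exact h
    · intro h
      rw [show 6 * (-27 * k) = 6 * k * -27 by ring]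
      exact h.mul_right _
  · exact iff_of_false (fun h => hp (Nat.prime_of_mem_primeFactors h))
      fun h => hp (Nat.prime_of_mem_primeFactors h)

/-- **The rank.** -/
theorem exists_rank_log_bound_of {θ : ℝ} (hθ : 0 ≤ θ) (hT : TorsionExponent θ) {ε : ℝ}
    (hε : 0 < ε) : ∃ C : ℝ, ∀ k : ℤ, k ≠ 0 →
    (mordRank k : ℝ) * Real.log 3 ≤ (2 * θ + ε) * Real.log |(k : ℝ)| + C := by
  obtain ⟨C, hC, h⟩ := exists_index_bound_of hθ hT (half_pos hε)
  refine ⟨2 * Real.log (max C 1) + (2 * θ + ε) * Real.log 6, fun k hk => ?_⟩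
  set R : ℝ := (supportProd k : ℝ)
  have hR : 1 ≤ R := Nat.one_le_cast.mpr (supportProd_pos k)
  have hM : 1 ≤ max C 1 := le_max_right _ _
  have h1 : ∀ l : ℤ, l ≠ 0 → supportProd l = supportProd k →
      (dualIndex (l : ℚ) : ℝ) ≤ max C 1 * R ^ (θ + ε / 2) := fun l hl e => by
    refine (h l hl).trans ?_
    rw [e]
    exact mul_le_mul_of_nonneg_right (le_max_left _ _) (by positivity)
  have h2 := h1 k hk rfl
  have h3 := h1 (-27 * k) (mul_ne_zero (by norm_num) hk) (by
    rw [supportProd, supportPrimes_neg27 hk])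
  have h4 : (3 : ℝ) ^ mordRank k ≤ (max C 1 * R ^ (θ + ε / 2)) ^ 2 := by
    have := three_pow_rank_le hk
    calc (3 : ℝ) ^ mordRank k
        ≤ (dualIndex (k : ℚ) : ℝ) * dualIndex ((-27 * k : ℤ) : ℚ) := by exact_mod_cast this
      _ ≤ _ := by rw [sq]; exact mul_le_mul h2 h3 (Nat.cast_nonneg _) (by positivity)
  have hk1 : (1 : ℝ) ≤ |(k : ℝ)| := by exact_mod_cast Int.one_le_abs hk
  have hlog := Real.log_le_log (by positivity) h4
  rw [Real.log_pow, Real.log_pow, Real.log_mul (by linarith) (by positivity),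
    Real.log_rpow (by linarith)] at hlog
  have hlR : Real.log R ≤ Real.log 6 + Real.log |(k : ℝ)| := by
    rw [← Real.log_mul (by norm_num) (by linarith)]
    exact Real.log_le_log (by linarith) (supportProd_le hk)
  push_cast at hlog
  have h5 := mul_le_mul_of_nonneg_left hlR (by linarith : (0 : ℝ) ≤ 2 * θ + ε)
  linarith

theorem exists_classes_bound {ε : ℝ} (hε : 0 < ε) : ∃ C : ℝ, 0 ≤ C ∧ ∀ k : ℤ, k ≠ 0 →
    Finite (DescentClasses (k : ℚ)) ∧
      (Nat.card (DescentClasses (k : ℚ)) : ℝ) ≤ C * (supportProd k : ℝ) ^ (1 / 2 + ε) :=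
  exists_classes_bound_of (by norm_num) torsionExponent_half hε

theorem exists_index_bound {ε : ℝ} (hε : 0 < ε) : ∃ C : ℝ, 0 ≤ C ∧ ∀ k : ℤ, k ≠ 0 →
    (dualIndex (k : ℚ) : ℝ) ≤ C * (supportProd k : ℝ) ^ (1 / 2 + ε) :=
  exists_index_bound_of (by norm_num) torsionExponent_half hε

theorem exists_rank_log_bound {ε : ℝ} (hε : 0 < ε) : ∃ C : ℝ, ∀ k : ℤ, k ≠ 0 →
    (mordRank k : ℝ) * Real.log 3 ≤ (1 + ε) * Real.log |(k : ℝ)| + C := by
  simpa using exists_rank_log_bound_of (by norm_num) torsionExponent_half hε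

end FA.BrumerSilverman
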