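import Mathlib.NumberTheory.NumberField.ClassNumber
import Mathlib.NumberTheory.NumberField.Units.DirichletTheorem
import Mathlib.RingTheory.DedekindDomain.Factorization

/-!
# Elements with exponents divisible by three

In a number field the integers whose exponents outside `T` are divisible by three fall, up to
cubes, into at most `3 ^ #T * #Cl[3] * 3 ^ (r + 1)` classes.
-/

set_option autoImplicit false
set_option linter.style.haveILetI false

noncomputable section

open NumberField IsDedekindDomain Finset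
open scoped nonZeroDivisors Classical

namespace FA.BrumerSilverman

variable {K : Type} [Field K] [NumberField K]

/-- The exponent of a prime in an integer. -/
abbrev expo (v : HeightOneSpectrum (𝓞 K)) (z : 𝓞 K) : ℕ :=
  (Associates.mk v.asIdeal).count (Associates.mk (Ideal.span {z})).factors

omit [NumberField K] in
theorem span_singleton_ne {z : 𝓞 K} (hz : z ≠ 0) : Ideal.span {z} ≠ 0 := by
  simpa using hz

theorem expo_mul (v : HeightOneSpectrum (𝓞 K)) {a b : 𝓞 K} (ha : a ≠ 0) (hb : b ≠ 0) :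
    expo v (a * b) = expo v a + expo v b := by
  rw [expo, ← Ideal.span_singleton_mul_span_singleton, ← Associates.mk_mul_mk,
    Associates.count_mul (Associates.mk_ne_zero.mpr (span_singleton_ne ha))
      (Associates.mk_ne_zero.mpr (span_singleton_ne hb)) v.associates_irreducible]

theorem expo_ne_zero_iff (v : HeightOneSpectrum (𝓞 K)) {z : 𝓞 K} (hz : z ≠ 0) :
    expo v z ≠ 0 ↔ z ∈ v.asIdeal := by
  rw [expo, Associates.count_ne_zero_iff_dvd (span_singleton_ne hz) v.irreducible,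
    Ideal.dvd_span_singleton]

/-- Non-zero, with exponents divisible by three outside `T`. -/
def Admissible (T : Finset (HeightOneSpectrum (𝓞 K))) (z : 𝓞 K) : Prop :=
  z ≠ 0 ∧ ∀ v ∉ T, 3 ∣ expo v z

/-- The principal ideal is a part supported at `T` times a cube. -/
theorem exists_decomposition {T : Finset (HeightOneSpectrum (𝓞 K))} {z : 𝓞 K}
    (hz : Admissible T z) : ∃ I : Ideal (𝓞 K), I ≠ ⊥ ∧
      Ideal.span {z} = (∏ v ∈ T, v.asIdeal ^ (expo v z % 3)) * I ^ 3 := by
  set s := T ∪ (Ideal.finite_factors (span_singleton_ne hz.1)).toFinset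
  have hs : Function.mulSupport (fun v : HeightOneSpectrum (𝓞 K) =>
      v.maxPowDividing (Ideal.span {z})) ⊆ (s : Set (HeightOneSpectrum (𝓞 K))) := by
    intro v hv
    refine mem_coe.mpr (mem_union_right _ ((Set.Finite.mem_toFinset _).mpr ?_))
    show v.asIdeal ∣ Ideal.span {z}
    rw [Ideal.dvd_span_singleton, ← expo_ne_zero_iff v hz.1]
    intro h
    exact hv (by simp [HeightOneSpectrum.maxPowDividing, show expo v z = 0 from h])
  refine ⟨∏ v ∈ s, v.asIdeal ^ (expo v z / 3), prod_ne_zero_iff.mpr fun v _ =>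
    pow_ne_zero _ v.ne_bot, ?_⟩
  have hT : (∏ v ∈ T, v.asIdeal ^ (expo v z % 3)) = ∏ v ∈ s, v.asIdeal ^ (expo v z % 3) :=
    prod_subset subset_union_left fun v _ hv => by
      rw [Nat.mod_eq_zero_of_dvd (hz.2 v hv), pow_zero]
  rw [← Finset.prod_pow, hT, ← prod_mul_distrib]
  conv_lhs => rw [← Ideal.finprod_heightOneSpectrum_factorization (span_singleton_ne hz.1),
    finprod_eq_prod_of_mulSupport_subset _ hs]
  refine prod_congr rfl fun v _ => ?_
  rw [← pow_mul, ← pow_add, HeightOneSpectrum.maxPowDividing]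
  congr 1
  show expo v z = _
  omega

/-- The units up to cubes. -/
theorem exists_unit_reps (K : Type) [Field K] [NumberField K] :
    ∃ R : Finset (𝓞 K)ˣ, R.card ≤ 3 ^ (Units.rank K + 1) ∧
      ∀ u : (𝓞 K)ˣ, ∃ r ∈ R, ∃ v : (𝓞 K)ˣ, u = r * v ^ 3 := by
  obtain ⟨g, hg⟩ := IsCyclic.exists_generator (α := Units.torsion K)
  set ζ : (𝓞 K)ˣ := g.1
  let F : Fin 3 × (Fin (Units.rank K) → Fin 3) → (𝓞 K)ˣ := fun e =>
    ζ ^ (e.1 : ℕ) * ∏ i, Units.fundSystem K i ^ (e.2 i : ℕ)
  refine ⟨univ.image F, card_image_le.trans_eq ?_, fun u => ?_⟩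
  · rw [card_univ, Fintype.card_prod, Fintype.card_fin, Fintype.card_fun, Fintype.card_fin,
      Fintype.card_fin, pow_succ']
  obtain ⟨⟨t, e⟩, hu, -⟩ := Units.exist_unique_eq_mul_prod K u
  obtain ⟨a, ha⟩ := Subgroup.mem_zpowers_iff.mp (hg t)
  refine ⟨_, mem_image_of_mem F (mem_univ (⟨(a % 3).toNat, by omega⟩,
    fun i => ⟨(e i % 3).toNat, by omega⟩)),
    ζ ^ (a / 3) * ∏ i, Units.fundSystem K i ^ (e i / 3), ?_⟩
  have hdiv : ∀ (x : (𝓞 K)ˣ) (n : ℤ), x ^ n = x ^ (n % 3).toNat * (x ^ (n / 3)) ^ 3 := by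
    intro x n
    rw [← zpow_natCast, ← zpow_natCast (x ^ (n / 3)), ← zpow_mul, ← zpow_add]
    congr 1
    omega
  rw [hu, mul_pow, ← Finset.prod_pow]
  simp only [F]
  rw [mul_mul_mul_comm, ← prod_mul_distrib, ← hdiv]
  congr 1
  · rw [← ha]; rfl
  · exact prod_congr rfl fun i _ => hdiv _ _

/-- **Up to cubes there are few admissible integers**: the classes of the cube roots with the same
exponents differ by classes killed by three. -/
theorem card_classes_le_three (T : Finset (HeightOneSpectrum (𝓞 K))) {ι : Type*} (z : ι → 𝓞 K)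
    (hz : ∀ i, Admissible T (z i))
    (hinj : ∀ i j, (∃ a b : 𝓞 K, a ≠ 0 ∧ b ≠ 0 ∧ z i * a ^ 3 = z j * b ^ 3) → i = j) :
    Finite ι ∧ Nat.card ι ≤ 3 ^ T.card * Nat.card {c : ClassGroup (𝓞 K) // c ^ 3 = 1} *
      3 ^ (Units.rank K + 1) := by
  obtain ⟨R, hR, hRu⟩ := exists_unit_reps K
  choose I hI hspan using fun i => exists_decomposition (hz i)
  let key : ι → (T → Fin 3) × ClassGroup (𝓞 K) := fun i =>
    (fun v => ⟨expo v.1 (z i) % 3, Nat.mod_lt _ (by norm_num)⟩,
      ClassGroup.mk0 ⟨I i, mem_nonZeroDivisors_of_ne_zero (hI i)⟩)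
  have hkey : ∀ i j, key i = key j → ∃ (u : (𝓞 K)ˣ) (a b : 𝓞 K),
      a ≠ 0 ∧ b ≠ 0 ∧ z i * a ^ 3 = u * (z j * b ^ 3) := by
    intro i j h
    obtain ⟨x, y, hx, hy, hxy⟩ := ClassGroup.mk0_eq_mk0_iff.mp (congrArg Prod.snd h)
    have hM : (∏ v ∈ T, v.asIdeal ^ (expo v (z i) % 3)) =
        ∏ v ∈ T, v.asIdeal ^ (expo v (z j) % 3) :=
      prod_congr rfl fun v hv => by
        rw [show expo v (z i) % 3 = expo v (z j) % 3 from
          congrArg Fin.val (congrFun (congrArg Prod.fst h) ⟨v, hv⟩)]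
    have e : Ideal.span {z i * x ^ 3} = Ideal.span {z j * y ^ 3} := by
      rw [← Ideal.span_singleton_mul_span_singleton, ← Ideal.span_singleton_mul_span_singleton,
        ← Ideal.span_singleton_pow, ← Ideal.span_singleton_pow, hspan i, hspan j, hM,
        mul_assoc, mul_assoc, ← mul_pow, ← mul_pow]
      congr 2
      rw [mul_comm (I i), mul_comm (I j)]
      exact hxy
    obtain ⟨u, hu⟩ := Ideal.span_singleton_eq_span_singleton.mp e.symm
    exact ⟨u, x, y, hx, hy, by rw [← hu, mul_comm]⟩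
  have href : ∀ i, ∃ r ∈ R, ∃ v : (𝓞 K)ˣ, ∃ a b : 𝓞 K, a ≠ 0 ∧ b ≠ 0 ∧
      z i * a ^ 3 = ↑(r * v ^ 3) * (z (@Function.invFun _ _ ⟨i⟩ key (key i)) * b ^ 3) := by
    intro i
    obtain ⟨u, a, b, ha, hb, h⟩ := hkey i (@Function.invFun _ _ ⟨i⟩ key (key i))
      (@Function.invFun_eq _ _ ⟨i⟩ key (key i) ⟨i, rfl⟩).symm
    obtain ⟨r, hr, v, rfl⟩ := hRu u
    exact ⟨r, hr, v, a, b, ha, hb, h⟩
  choose r hr v a b ha hb href using href
  let res : ι → T → Fin 3 := fun i => (key i).1
  have hcls : ∀ i, ((key i).2 / (key (@Function.invFun _ _ ⟨i⟩ res (res i))).2) ^ 3 = 1 := by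
    intro i
    set j := @Function.invFun _ _ ⟨i⟩ res (res i)
    have hr' : res j = res i := @Function.invFun_eq _ _ ⟨i⟩ res (res i) ⟨i, rfl⟩
    rw [div_pow, div_eq_one]
    have hM : (∏ v ∈ T, v.asIdeal ^ (expo v (z j) % 3)) =
        ∏ v ∈ T, v.asIdeal ^ (expo v (z i) % 3) :=
      prod_congr rfl fun v hv => by
        rw [show expo v (z j) % 3 = expo v (z i) % 3 from
          congrArg Fin.val (congrFun hr' ⟨v, hv⟩)]
    simp only [key]
    rw [← map_pow, ← map_pow, ClassGroup.mk0_eq_mk0_iff]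
    refine ⟨z j, z i, (hz j).1, (hz i).1, ?_⟩
    simp only [SubmonoidClass.coe_pow]
    rw [hspan i, hspan j, hM, mul_assoc, mul_assoc, mul_comm (I i ^ 3) (I j ^ 3)]
  let d : ι → ((T → Fin 3) × {c : ClassGroup (𝓞 K) // c ^ 3 = 1}) × R := fun i =>
    ((res i, ⟨_, hcls i⟩), ⟨r i, hr i⟩)
  have hd : Function.Injective d := by
    intro i j h
    have hres : res i = res j := congrArg (fun w => w.1.1) h
    have h1 : key i = key j := by
      refine Prod.ext hres ?_
      have h' := congrArg (fun w => w.1.2.1) h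
      simp only [d] at h'
      rw [show @Function.invFun _ _ ⟨j⟩ res (res j) = @Function.invFun _ _ ⟨i⟩ res (res i) by
        rw [hres]] at h'
      exact div_left_injective h'
    have h2 : r i = r j := congrArg Subtype.val (congrArg Prod.snd h)
    have e : @Function.invFun _ _ ⟨i⟩ key (key i) = @Function.invFun _ _ ⟨j⟩ key (key j) := by
      rw [h1]
    refine hinj i j ⟨a i * v j * b j, a j * v i * b i, ?_, ?_, ?_⟩
    · exact mul_ne_zero (mul_ne_zero (ha i) (v j).ne_zero) (hb j)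
    · exact mul_ne_zero (mul_ne_zero (ha j) (v i).ne_zero) (hb i)
    · have h3 := href i
      have h4 := href j
      rw [e, h2] at h3
      push_cast at h3 h4
      linear_combination ((v j : 𝓞 K) * b j) ^ 3 * h3 - ((v i : 𝓞 K) * b i) ^ 3 * h4
  refine ⟨Finite.of_injective d hd, (Nat.card_le_card_of_injective d hd).trans ?_⟩
  rw [Nat.card_prod, Nat.card_prod, Nat.card_fun, Nat.card_fin,
    Nat.card_eq_fintype_card (α := T), Fintype.card_coe, Nat.card_eq_fintype_card (α := R),
    Fintype.card_coe]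
  exact Nat.mul_le_mul_left _ hR

theorem card_three_torsion_le :
    Nat.card {c : ClassGroup (𝓞 K) // c ^ 3 = 1} ≤ classNumber K := by
  rw [classNumber, ← Nat.card_eq_fintype_card]
  exact Nat.card_le_card_of_injective Subtype.val Subtype.val_injective

end FA.BrumerSilverman
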